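import Fermat.Agent.DS.Wt1.Defs

/-!
# DS-D leaf G: arithmetic of the coefficients (cyclotomic integers modulo `1 - ζ`)
-/

set_option autoImplicit false

open Complex
open scoped Real

noncomputable section

theorem dsw_zeta_isPrimitiveRoot (l : ℕ) [NeZero l] : IsPrimitiveRoot (dsw_zeta l) l :=
  Complex.isPrimitiveRoot_exp l (NeZero.ne l)

theorem dsw_zeta_pow_self (l : ℕ) [NeZero l] : dsw_zeta l ^ l = 1 :=
  (dsw_zeta_isPrimitiveRoot l).pow_eq_one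

theorem dsw_zeta_ne_zero (l : ℕ) : dsw_zeta l ≠ 0 := Complex.exp_ne_zero _

theorem dsw_zeta_zpow_ne_one (l : ℕ) [NeZero l] (a : ℤ) (ha : ¬ (l : ℤ) ∣ a) :
    dsw_zeta l ^ a ≠ 1 := by
  intro h
  exact ha ((dsw_zeta_isPrimitiveRoot l).zpow_eq_one_iff_dvd a |>.mp h)

theorem dsw_zeta_zpow_pow_self (l : ℕ) [NeZero l] (a : ℤ) : (dsw_zeta l ^ a) ^ l = 1 := by
  rw [← zpow_natCast, ← zpow_mul, mul_comm, zpow_mul, zpow_natCast, dsw_zeta_pow_self, one_zpow]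

theorem dsw_zeta_zpow_ne_neg_one (l : ℕ) [NeZero l] (hodd : Odd l) (a : ℤ) :
    dsw_zeta l ^ a ≠ -1 := by
  intro h
  have h1 := dsw_zeta_zpow_pow_self l a
  rw [h, hodd.neg_one_pow] at h1
  norm_num at h1

theorem dsw_exp_torsion (N : ℕ) (a : ℤ) :
    cexp (2 * π * I * ((a : ℂ) / N)) = dsw_zeta N ^ a := by
  unfold dsw_zeta
  rw [← Complex.exp_int_mul]
  congr 1
  ring

/-- `π cot (π a / N) = π i (u + 1) / (u - 1)`, `u = ζ_N ^ a`. -/
theorem dsw_pcot_torsion (N : ℕ) [NeZero N] (a : ℤ) (ha : ¬ (N : ℤ) ∣ a) :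
    dsw_pcot ((a : ℂ) / N) = π * I * (dsw_zeta N ^ a + 1) / (dsw_zeta N ^ a - 1) := by
  have h1 : dsw_zeta N ^ a - 1 ≠ 0 := sub_ne_zero.mpr (dsw_zeta_zpow_ne_one N a ha)
  have h2 : 1 - dsw_zeta N ^ a ≠ 0 := sub_ne_zero.mpr (Ne.symm (dsw_zeta_zpow_ne_one N a ha))
  have hI : (I : ℂ) ≠ 0 := I_ne_zero
  rw [dsw_pcot, Complex.cot_pi_eq_exp_ratio, dsw_exp_torsion]
  generalize dsw_zeta N ^ a = u at h1 h2 ⊢
  field_simp
  linear_combination (-(u + 1) * (1 - u)) * I_sq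

theorem dsw_prime_odd {l : ℕ} (hl : l.Prime) (hl2 : l ≠ 2) : Odd l :=
  hl.odd_of_ne_two hl2

theorem dsw_pcot_torsion_ne_zero (l : ℕ) (hl : l.Prime) (hl2 : l ≠ 2) (a : ℤ)
    (ha : ¬ (l : ℤ) ∣ a) : dsw_pcot ((a : ℂ) / l) ≠ 0 := by
  have : NeZero l := ⟨hl.ne_zero⟩
  rw [dsw_pcot_torsion l a ha]
  have h1 : dsw_zeta l ^ a - 1 ≠ 0 := sub_ne_zero.mpr (dsw_zeta_zpow_ne_one l a ha)
  have h2 : dsw_zeta l ^ a + 1 ≠ 0 := by
    intro h
    exact dsw_zeta_zpow_ne_neg_one l (dsw_prime_odd hl hl2) a (eq_neg_of_add_eq_zero_left h)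
  have hpi : (π : ℂ) ≠ 0 := by exact_mod_cast Real.pi_ne_zero
  exact div_ne_zero (mul_ne_zero (mul_ne_zero hpi I_ne_zero) h2) h1

/-! ### natural representatives of exponents -/

theorem dsw_exists_nat_rep (l : ℕ) [NeZero l] (a : ℤ) :
    ∃ k : ℕ, dsw_zeta l ^ a = dsw_zeta l ^ k ∧ ∃ t : ℤ, a = k + l * t := by
  have hl : (l : ℤ) ≠ 0 := by exact_mod_cast NeZero.ne l
  refine ⟨(a % l).toNat, ?_, a / l, ?_⟩
  · have h1 : ((a % l).toNat : ℤ) = a % l := Int.toNat_of_nonneg (Int.emod_nonneg a hl)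
    have h2 : a = a % l + l * (a / l) := (Int.emod_add_mul_ediv a l).symm
    conv_lhs => rw [h2]
    rw [zpow_add₀ (dsw_zeta_ne_zero l), zpow_mul, zpow_natCast, dsw_zeta_pow_self, one_zpow,
      mul_one]
    conv_lhs => rw [← h1]
    rw [zpow_natCast]
  · have h1 : ((a % l).toNat : ℤ) = a % l := Int.toNat_of_nonneg (Int.emod_nonneg a hl)
    rw [h1]
    exact (Int.emod_add_mul_ediv a l).symm

theorem dsw_zeta_isIntegral (l : ℕ) [NeZero l] : IsIntegral ℤ (dsw_zeta l) :=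
  (dsw_zeta_isPrimitiveRoot l).isIntegral (Nat.pos_of_ne_zero (NeZero.ne l))

theorem dsw_zeta_zpow_isIntegral (l : ℕ) [NeZero l] (a : ℤ) : IsIntegral ℤ (dsw_zeta l ^ a) := by
  obtain ⟨k, hk, -⟩ := dsw_exists_nat_rep l a
  rw [hk]
  exact (dsw_zeta_isIntegral l).pow k

theorem dsw_sig_integral (l : ℕ) [NeZero l] (a : ℤ) (n : ℕ) :
    IsIntegral ℤ (dsw_sig (dsw_zeta l ^ a) n) := by
  unfold dsw_sig
  apply IsIntegral.sum
  intro d _
  apply IsIntegral.sub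
  · rw [← zpow_neg_one, ← zpow_mul]
    exact (dsw_zeta_zpow_isIntegral l _).pow d
  · exact (dsw_zeta_zpow_isIntegral l a).pow d

/-- For `l` an odd prime and `l ∤ a`: `2 (u - 1) / (u + 1) = (1 - ζ) b` with `b` integral. -/
theorem dsw_ratio_integral (l : ℕ) (hl : l.Prime) (hl2 : l ≠ 2) (a : ℤ) (ha : ¬ (l : ℤ) ∣ a) :
    ∃ b : ℂ, IsIntegral ℤ b ∧
      2 * (dsw_zeta l ^ a - 1) / (dsw_zeta l ^ a + 1) = (1 - dsw_zeta l) * b := by
  have : NeZero l := ⟨hl.ne_zero⟩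
  have hodd := dsw_prime_odd hl hl2
  obtain ⟨k, hk, -⟩ := dsw_exists_nat_rep l a
  set ζ := dsw_zeta l with hζ
  set u := ζ ^ a with hu
  have hu1 : u + 1 ≠ 0 := fun h ↦
    dsw_zeta_zpow_ne_neg_one l hodd a (eq_neg_of_add_eq_zero_left h)
  have hul : u ^ l = 1 := dsw_zeta_zpow_pow_self l a
  have hY : (∑ j ∈ Finset.range l, (-u) ^ j) * (1 + u) = 2 := by
    have := geom_sum_mul_neg (-u) l
    rw [sub_neg_eq_add, hodd.neg_pow, hul] at this
    rw [this]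
    norm_num
  have hS : (∑ i ∈ Finset.range k, ζ ^ i) * (ζ - 1) = u - 1 := by
    rw [geom_sum_mul, ← hk]
  refine ⟨-((∑ j ∈ Finset.range l, (-u) ^ j) * ∑ i ∈ Finset.range k, ζ ^ i), ?_, ?_⟩
  · apply IsIntegral.neg
    apply IsIntegral.mul
    · exact IsIntegral.sum _ fun j _ ↦ ((dsw_zeta_zpow_isIntegral l a).neg).pow j
    · exact IsIntegral.sum _ fun i _ ↦ (dsw_zeta_isIntegral l).pow i
  · rw [div_eq_iff hu1, ← hY, ← hS]
    ring

/-! ### the ring `ℤ̄` and the prime `1 - ζ` -/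

/-- `ζ_l` as an element of `ℤ̄`. -/
def dsw_z (l : ℕ) [NeZero l] : integralClosure ℤ ℂ := ⟨dsw_zeta l, dsw_zeta_isIntegral l⟩

theorem dsw_z_coe (l : ℕ) [NeZero l] : ((dsw_z l : integralClosure ℤ ℂ) : ℂ) = dsw_zeta l := rfl

theorem dsw_z_pow_self (l : ℕ) [NeZero l] : dsw_z l ^ l = 1 := by
  apply Subtype.ext
  push_cast
  rw [dsw_z_coe, dsw_zeta_pow_self]

/-- `1 - ζ_l` lies in every prime of `ℤ̄` containing `l`. -/
theorem dsw_one_sub_z_mem (l : ℕ) [NeZero l] (hl : l.Prime) (P : Ideal (integralClosure ℤ ℂ))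
    [P.IsPrime] (hP : (l : integralClosure ℤ ℂ) ∈ P) : 1 - dsw_z l ∈ P := by
  obtain ⟨r, hr⟩ := exists_add_pow_prime_eq hl (dsw_z l) (-1)
  have h1 : (dsw_z l + -1) ^ l ∈ P := by
    rw [hr, dsw_z_pow_self]
    rcases hl.eq_two_or_odd' with h2 | hodd
    · subst h2
      have : (1 : integralClosure ℤ ℂ) + (-1) ^ 2 + ((2 : ℕ) : integralClosure ℤ ℂ) * dsw_z 2 * -1 * r =
          ((2 : ℕ) : integralClosure ℤ ℂ) * (1 - dsw_z 2 * r) := by
        push_cast; ring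
      rw [this]
      exact P.mul_mem_right _ hP
    · rw [hodd.neg_one_pow]
      have : (1 : integralClosure ℤ ℂ) + -1 + (l : integralClosure ℤ ℂ) * dsw_z l * -1 * r =
          (l : integralClosure ℤ ℂ) * (-(dsw_z l * r)) := by ring
      rw [this]
      exact P.mul_mem_right _ hP
  have h2 := Ideal.IsPrime.mem_of_pow_mem inferInstance l h1
  have : 1 - dsw_z l = -(dsw_z l + -1) := by ring
  rw [this]
  exact P.neg_mem h2

theorem dsw_one_sub_zeta_mem (l : ℕ) (hl : l.Prime) (P : Ideal (integralClosure ℤ ℂ))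
    [P.IsPrime] (hP : (l : integralClosure ℤ ℂ) ∈ P) :
    ∃ x : integralClosure ℤ ℂ, x ∈ P ∧ (x : ℂ) = 1 - dsw_zeta l := by
  have : NeZero l := ⟨hl.ne_zero⟩
  refine ⟨1 - dsw_z l, dsw_one_sub_z_mem l hl P hP, ?_⟩
  push_cast
  rw [dsw_z_coe]

/-! ### the constant terms: `κ_d` -/

theorem dsw_z_ne_one (l : ℕ) [NeZero l] (hl : 1 < l) : dsw_z l ≠ 1 := by
  intro h
  have := congrArg (Subtype.val) h
  exact (dsw_zeta_isPrimitiveRoot l).ne_one hl this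

theorem dsw_mk_z (l : ℕ) [NeZero l] :
    Ideal.Quotient.mk (Ideal.span {1 - dsw_z l}) (dsw_z l) = 1 := by
  rw [← map_one (Ideal.Quotient.mk (Ideal.span {1 - dsw_z l})), Ideal.Quotient.eq]
  have : dsw_z l - 1 = -(1 - dsw_z l) := by ring
  rw [this]
  exact neg_mem (Ideal.subset_span rfl)

theorem dsw_mk_l (l : ℕ) [NeZero l] (hl : 1 < l) :
    Ideal.Quotient.mk (Ideal.span {1 - dsw_z l}) (l : integralClosure ℤ ℂ) = 0 := by
  have hsum : ∑ i ∈ Finset.range l, dsw_z l ^ i = 0 := by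
    have h := geom_sum_mul (dsw_z l) l
    rw [dsw_z_pow_self, sub_self] at h
    rcases mul_eq_zero.mp h with h0 | h0
    · exact h0
    · exact absurd (sub_eq_zero.mp h0) (dsw_z_ne_one l hl)
  have := congrArg (Ideal.Quotient.mk (Ideal.span {1 - dsw_z l})) hsum
  rw [map_sum] at this
  simp only [map_pow, dsw_mk_z, one_pow, Finset.sum_const, Finset.card_range, nsmul_eq_mul,
    mul_one, map_zero] at this
  rw [map_natCast]
  exact this

/-- `κ_d = c_0 (E_d) / c_0 (E_1)` is integral and `d κ_d = 1` modulo `1 - ζ`. -/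
theorem dsw_kappa (l : ℕ) (hl : l.Prime) (hl2 : l ≠ 2) (d : ℤ) (hd : ¬ (l : ℤ) ∣ d) :
    IsIntegral ℤ (dsw_pcot ((d : ℂ) / l) / dsw_pcot ((1 : ℂ) / l)) ∧
    ∃ b : ℂ, IsIntegral ℤ b ∧
      d * (dsw_pcot ((d : ℂ) / l) / dsw_pcot ((1 : ℂ) / l)) = 1 + (1 - dsw_zeta l) * b := by
  have : NeZero l := ⟨hl.ne_zero⟩
  have hodd := dsw_prime_odd hl hl2
  have hl1 : 1 < l := hl.one_lt
  obtain ⟨k, hk, t, ht⟩ := dsw_exists_nat_rep l d
  -- `k` is prime to `l`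
  have hkl : ¬ l ∣ k := by
    intro h
    apply hd
    rw [ht]
    exact dvd_add (by exact_mod_cast h) (dvd_mul_right _ _)
  have hcop : Nat.Coprime k l := ((Nat.Prime.coprime_iff_not_dvd hl).mpr hkl).symm
  obtain ⟨e, -, he⟩ := Nat.exists_mul_mod_eq_one_of_coprime hcop hl1
  have hke : k * e = 1 + l * (k * e / l) := by
    have := Nat.mod_add_div (k * e) l
    rw [he] at this
    exact this.symm
  set s := k * e / l with hs
  obtain ⟨h, hh⟩ : ∃ h : ℕ, l + 1 = 2 * h := by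
    obtain ⟨m, hm⟩ := hodd
    exact ⟨m + 1, by rw [hm]; ring⟩
  -- complex numbers
  set ζ := dsw_zeta l with hζ
  have hζl : ζ ^ l = 1 := dsw_zeta_pow_self l
  have hζ1 : ζ ≠ 1 := (dsw_zeta_isPrimitiveRoot l).ne_one hl1
  set u := ζ ^ k with hu
  have hud : ζ ^ d = u := hk
  have hu1 : u - 1 ≠ 0 := by
    rw [← hud]
    exact sub_ne_zero.mpr (dsw_zeta_zpow_ne_one l d hd)
  have hζm1 : ζ - 1 ≠ 0 := sub_ne_zero.mpr hζ1
  have hζp1 : ζ + 1 ≠ 0 := by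
    intro h0
    have := dsw_zeta_zpow_ne_neg_one l hodd 1
    rw [zpow_one] at this
    exact this (eq_neg_of_add_eq_zero_left h0)
  have hue : u ^ e = ζ := by
    rw [hu, ← pow_mul, hke, pow_add, pow_mul, hζl, one_pow, mul_one, pow_one]
  have hX1 : (∑ i ∈ Finset.range e, u ^ i) * (u - 1) = ζ - 1 := by
    rw [geom_sum_mul, hue]
  have hX2 : (∑ i ∈ Finset.range h, (ζ ^ 2) ^ i) * (ζ + 1) = 1 := by
    have h1 := geom_sum_mul (ζ ^ 2) h
    have hp : (ζ ^ 2) ^ h = ζ := by rw [← pow_mul, ← hh, pow_succ, hζl, one_mul]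
    rw [hp] at h1
    have h2 : (∑ i ∈ Finset.range h, (ζ ^ 2) ^ i) * (ζ + 1) * (ζ - 1) = 1 * (ζ - 1) := by
      rw [one_mul]
      calc (∑ i ∈ Finset.range h, (ζ ^ 2) ^ i) * (ζ + 1) * (ζ - 1)
          = (∑ i ∈ Finset.range h, (ζ ^ 2) ^ i) * (ζ ^ 2 - 1) := by ring
        _ = ζ - 1 := h1
    exact mul_right_cancel₀ hζm1 h2
  -- the ratio
  have hone : dsw_zeta l ^ (1 : ℤ) = ζ := zpow_one _
  have h1l : ¬ (l : ℤ) ∣ 1 := by
    intro h0
    have := Int.eq_one_of_dvd_one (by positivity) h0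
    have : l = 1 := by exact_mod_cast this
    omega
  have hratio : dsw_pcot ((d : ℂ) / l) / dsw_pcot ((1 : ℂ) / l) =
      (u + 1) * (∑ i ∈ Finset.range e, u ^ i) * (∑ i ∈ Finset.range h, (ζ ^ 2) ^ i) := by
    have e1 := dsw_pcot_torsion l d hd
    have e2 := dsw_pcot_torsion l 1 h1l
    rw [hone] at e2
    rw [hud] at e1
    have e2' : dsw_pcot ((1 : ℂ) / l) = π * I * (ζ + 1) / (ζ - 1) := by
      rw [← e2]; norm_num
    rw [e1, e2']
    have hpi : (π : ℂ) ≠ 0 := by exact_mod_cast Real.pi_ne_zero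
    have hI : (I : ℂ) ≠ 0 := I_ne_zero
    rw [← hX1]
    have hX2' : (∑ i ∈ Finset.range h, (ζ ^ 2) ^ i) = 1 / (ζ + 1) := by
      rw [eq_div_iff hζp1, hX2]
    rw [hX2']
    field_simp
  -- the same in `ℤ̄`
  set zz := dsw_z l with hzz
  set K : integralClosure ℤ ℂ :=
    (zz ^ k + 1) * (∑ i ∈ Finset.range e, (zz ^ k) ^ i) * (∑ i ∈ Finset.range h, (zz ^ 2) ^ i)
    with hK
  have hKc : ((K : integralClosure ℤ ℂ) : ℂ) =
      (u + 1) * (∑ i ∈ Finset.range e, u ^ i) * (∑ i ∈ Finset.range h, (ζ ^ 2) ^ i) := by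
    rw [hK]
    push_cast
    rw [hzz, dsw_z_coe]
  rw [hratio, ← hKc]
  refine ⟨K.2, ?_⟩
  -- the congruence
  have hmkz := dsw_mk_z l
  have hmkl := dsw_mk_l l hl1
  rw [← hzz] at hmkz hmkl
  have hcong : Ideal.Quotient.mk (Ideal.span {1 - zz}) ((d : integralClosure ℤ ℂ) * K) =
      Ideal.Quotient.mk (Ideal.span {1 - zz}) 1 := by
    have hdz : (d : integralClosure ℤ ℂ) = (k : integralClosure ℤ ℂ) + (l : integralClosure ℤ ℂ) * t := by
      rw [ht]; push_cast; ring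
    rw [hdz, hK]
    simp only [map_mul, map_add, map_sum, map_pow, map_one, hmkz, hmkl, one_pow, zero_mul,
      add_zero, Finset.sum_const, Finset.card_range, nsmul_eq_mul, mul_one, map_natCast,
      map_intCast]
    have h2 : ((1 : integralClosure ℤ ℂ ⧸ Ideal.span {1 - zz}) + 1) * (h : integralClosure ℤ ℂ ⧸ Ideal.span {1 - zz}) = 1 := by
      have : ((l + 1 : ℕ) : integralClosure ℤ ℂ ⧸ Ideal.span {1 - zz}) = ((2 * h : ℕ) : integralClosure ℤ ℂ ⧸ Ideal.span {1 - zz}) := by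
        rw [hh]
      push_cast at this
      rw [← map_natCast (Ideal.Quotient.mk (Ideal.span {1 - zz})) l, hmkl, zero_add] at this
      rw [one_add_one_eq_two]
      exact this.symm
    have h3 : (k : integralClosure ℤ ℂ ⧸ Ideal.span {1 - zz}) * (e : integralClosure ℤ ℂ ⧸ Ideal.span {1 - zz}) = 1 := by
      have : ((k * e : ℕ) : integralClosure ℤ ℂ ⧸ Ideal.span {1 - zz}) = ((1 + l * s : ℕ) : integralClosure ℤ ℂ ⧸ Ideal.span {1 - zz}) := by
        rw [hke]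
      push_cast at this
      rw [← map_natCast (Ideal.Quotient.mk (Ideal.span {1 - zz})) l, hmkl, zero_mul, add_zero] at this
      exact this
    calc (k : integralClosure ℤ ℂ ⧸ Ideal.span {1 - zz}) * ((1 + 1) * e * h)
        = (k * e) * ((1 + 1) * h) := by ring
      _ = 1 := by rw [h3, h2, one_mul]
  rw [Ideal.Quotient.eq, Ideal.mem_span_singleton'] at hcong
  obtain ⟨c, hc⟩ := hcong
  refine ⟨c, c.2, ?_⟩
  have := congrArg (Subtype.val) hc
  push_cast at this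
  rw [hzz, dsw_z_coe] at this
  push_cast
  linear_combination -this

end
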