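import Fermat.Agent.DS.Wt1.ZSum

/-!
# DS-D leaf E: the `q`-expansion of `F_{0, β}`
-/

set_option autoImplicit false

open UpperHalfPlane hiding I
open Complex Filter Topology Nat
open scoped Real

noncomputable section

theorem dsw_lambert_summable (a : ℕ → ℂ) (A : ℝ) (ha : ∀ k, ‖a k‖ ≤ A) (q : ℂ) (hq : ‖q‖ < 1) :
    Summable (fun c : ℕ+ × ℕ+ ↦ a c.2 * q ^ (c.1 * c.2 : ℕ)) := by
  have h := summable_prod_mul_pow (𝕜 := ℝ) 0 (r := ‖q‖) (by simpa using hq)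
  simp only [pow_zero, one_mul] at h
  apply Summable.of_norm_bounded (h.mul_left A)
  intro c
  rw [norm_mul, norm_pow]
  exact mul_le_mul_of_nonneg_right (ha _) (by positivity)

theorem dsw_lambert_summable_sigma (a : ℕ → ℂ) (A : ℝ) (ha : ∀ k, ‖a k‖ ≤ A) (q : ℂ)
    (hq : ‖q‖ < 1) :
    Summable fun c : (n : ℕ+) × {x // x ∈ (n : ℕ).divisorsAntidiagonal} ↦
      a c.2.1.2 * q ^ (c.2.1.1 * c.2.1.2) := by
  have := sigmaAntidiagonalEquivProd.summable_iff.mpr (dsw_lambert_summable a A ha q hq)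
  simpa [sigmaAntidiagonalEquivProd, divisorsAntidiagonalFactors, Function.comp_def] using this

theorem dsw_lambert_inner (a : ℕ → ℂ) (q : ℂ) (n : ℕ+) :
    ∑' y : {x // x ∈ (n : ℕ).divisorsAntidiagonal}, a y.1.2 * q ^ (y.1.1 * y.1.2) =
      (∑ d ∈ (n : ℕ).divisors, a d) * q ^ (n : ℕ) := by
  rw [tsum_fintype, Finset.univ_eq_attach,
    (n : ℕ).divisorsAntidiagonal.sum_attach fun x : ℕ × ℕ ↦ a x.2 * q ^ (x.1 * x.2),
    Nat.sum_divisorsAntidiagonal' fun x y ↦ a y * q ^ (x * y), Finset.sum_mul]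
  exact Finset.sum_congr rfl fun i hi ↦ by rw [Nat.div_mul_cancel (dvd_of_mem_divisors hi)]

theorem dsw_lambert (a : ℕ → ℂ) (A : ℝ) (ha : ∀ k, ‖a k‖ ≤ A) (q : ℂ) (hq : ‖q‖ < 1) :
    ∑' c : ℕ+ × ℕ+, a c.2 * q ^ (c.1 * c.2 : ℕ) =
      ∑' n : ℕ+, (∑ d ∈ (n : ℕ).divisors, a d) * q ^ (n : ℕ) := by
  have hs' := dsw_lambert_summable_sigma a A ha q hq
  rw [← sigmaAntidiagonalEquivProd.tsum_eq]
  simp only [sigmaAntidiagonalEquivProd, divisorsAntidiagonalFactors, PNat.mk_coe, Equiv.coe_fn_mk]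
  rw [Summable.tsum_sigma hs']
  exact tsum_congr fun n ↦ dsw_lambert_inner a q n

theorem dsw_lambert_summable_pnat (a : ℕ → ℂ) (A : ℝ) (ha : ∀ k, ‖a k‖ ≤ A) (q : ℂ)
    (hq : ‖q‖ < 1) :
    Summable fun n : ℕ+ ↦ (∑ d ∈ (n : ℕ).divisors, a d) * q ^ (n : ℕ) := by
  have := (dsw_lambert_summable_sigma a A ha q hq).sigma
  refine this.congr fun n ↦ ?_
  exact dsw_lambert_inner a q n

/-- geometric series without the constant term. -/
theorem dsw_geom (t : ℂ) (ht : ‖t‖ < 1) : t / (1 - t) = ∑' k : ℕ+, t ^ (k : ℕ) := by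
  rw [tsum_pnat_eq_tsum_succ (f := fun k ↦ t ^ k)]
  simp_rw [pow_succ]
  rw [tsum_mul_right, tsum_geometric_of_norm_lt_one ht]
  ring

theorem dsw_geom_summable (t : ℂ) (ht : ‖t‖ < 1) : Summable fun k : ℕ+ ↦ t ^ (k : ℕ) := by
  rw [summable_pnat_iff_summable_succ (f := fun k ↦ t ^ k)]
  exact (summable_nat_add_iff 1).mpr (summable_geometric_of_norm_lt_one ht)

theorem dsw_norm_u (β : ℝ) : ‖cexp (2 * π * I * β)‖ = 1 := by
  rw [dsw_norm_exp]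
  simp

theorem dsw_q_eq (τ : ℍ) : Function.Periodic.qParam 1 τ = cexp (2 * π * I * τ) := by
  simp [Function.Periodic.qParam]

theorem dsw_norm_q_lt (τ : ℍ) : ‖cexp (2 * π * I * τ)‖ < 1 := by
  rw [← dsw_q_eq]
  exact Function.Periodic.norm_qParam_lt_one one_pos τ.im_pos

/-- one term of the series for `F_{0, β}`. -/
theorem dsw_Zterm_eq_tsum (β : ℝ) (τ : ℍ) (m : ℕ+) :
    dsw_Zterm β τ ((m : ℕ) - 1) = 2 * π * I * ∑' k : ℕ+,
      ((cexp (2 * π * I * β))⁻¹ ^ (k : ℕ) - cexp (2 * π * I * β) ^ (k : ℕ)) *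
        cexp (2 * π * I * τ) ^ ((m : ℕ) * k : ℕ) := by
  set u := cexp (2 * π * I * β) with hu
  set q := cexp (2 * π * I * τ) with hq
  have hnu : ‖u‖ = 1 := dsw_norm_u β
  have hnq : ‖q‖ < 1 := dsw_norm_q_lt τ
  have hm1 : (((m : ℕ) - 1 : ℕ) : ℂ) + 1 = (m : ℂ) := by
    have : 1 ≤ (m : ℕ) := m.pos
    push_cast [Nat.cast_sub this]
    ring
  have hqm : ‖q ^ (m : ℕ)‖ < 1 := by
    rw [norm_pow]
    exact pow_lt_one₀ (norm_nonneg _) hnq m.ne_zero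
  -- the two exponentials
  have ht : cexp (2 * π * I * ((β : ℂ) + (m : ℂ) * τ)) = u * q ^ (m : ℕ) := by
    rw [hu, hq, ← Complex.exp_nat_mul, ← Complex.exp_add]
    congr 1
    ring
  have ht' : cexp (2 * π * I * ((m : ℂ) * τ - (β : ℂ))) = u⁻¹ * q ^ (m : ℕ) := by
    rw [hu, hq, ← Complex.exp_nat_mul, ← Complex.exp_neg, ← Complex.exp_add]
    congr 1
    ring
  have hnt : ‖u * q ^ (m : ℕ)‖ < 1 := by rw [norm_mul, hnu, one_mul]; exact hqm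
  have hnt' : ‖u⁻¹ * q ^ (m : ℕ)‖ < 1 := by rw [norm_mul, norm_inv, hnu, inv_one, one_mul]; exact hqm
  have hne : u * q ^ (m : ℕ) ≠ 1 := fun h ↦ by rw [h, norm_one] at hnt; exact lt_irrefl _ hnt
  have hne' : u⁻¹ * q ^ (m : ℕ) ≠ 1 := fun h ↦ by rw [h, norm_one] at hnt'; exact lt_irrefl _ hnt'
  have p1 : dsw_pcot ((β : ℂ) + (m : ℂ) * τ) =
      -(π * I) - 2 * π * I * ((u * q ^ (m : ℕ)) / (1 - u * q ^ (m : ℕ))) := by
    rw [dsw_pcot_eq_exp _ (by rw [ht]; exact hne), ht]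
  have p2 : dsw_pcot ((β : ℂ) - (m : ℂ) * τ) =
      π * I + 2 * π * I * ((u⁻¹ * q ^ (m : ℕ)) / (1 - u⁻¹ * q ^ (m : ℕ))) := by
    have e : (β : ℂ) - (m : ℂ) * τ = -((m : ℂ) * τ - (β : ℂ)) := by ring
    rw [e, dsw_pcot_neg, dsw_pcot_eq_exp _ (by rw [ht']; exact hne'), ht']
    ring
  unfold dsw_Zterm
  rw [hm1, p1, p2, dsw_geom _ hnt, dsw_geom _ hnt']
  have hsub : ∑' k : ℕ+, ((u⁻¹ ^ (k : ℕ) - u ^ (k : ℕ)) * q ^ ((m : ℕ) * k : ℕ)) =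
      ∑' k : ℕ+, (u⁻¹ * q ^ (m : ℕ)) ^ (k : ℕ) - ∑' k : ℕ+, (u * q ^ (m : ℕ)) ^ (k : ℕ) := by
    rw [← (dsw_geom_summable _ hnt').tsum_sub (dsw_geom_summable _ hnt)]
    refine tsum_congr fun k ↦ ?_
    rw [mul_pow, mul_pow, ← pow_mul]
    ring
  rw [hsub]
  ring

theorem dsw_a_norm_le (β : ℝ) (k : ℕ) :
    ‖(cexp (2 * π * I * β))⁻¹ ^ k - cexp (2 * π * I * β) ^ k‖ ≤ 2 := by
  refine le_trans (norm_sub_le _ _) ?_
  rw [norm_pow, norm_pow, norm_inv, dsw_norm_u]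
  norm_num

/-- the sum of all the terms. -/
theorem dsw_R_eq_tsum (β : ℝ) (τ : ℍ) :
    ∑' m : ℕ, dsw_Zterm β τ m = 2 * π * I * ∑' n : ℕ+,
      dsw_sig (cexp (2 * π * I * β)) n * cexp (2 * π * I * τ) ^ (n : ℕ) := by
  set u := cexp (2 * π * I * β) with hu
  set q := cexp (2 * π * I * τ) with hq
  have hnq : ‖q‖ < 1 := dsw_norm_q_lt τ
  have h1 : ∑' m : ℕ, dsw_Zterm β τ m = ∑' m : ℕ+, dsw_Zterm β τ ((m : ℕ) - 1) := by
    rw [tsum_pnat_eq_tsum_succ (f := fun m ↦ dsw_Zterm β τ (m - 1))]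
    simp
  rw [h1]
  simp_rw [dsw_Zterm_eq_tsum β τ]
  rw [tsum_mul_left]
  congr 1
  have hs := dsw_lambert_summable (fun k ↦ u⁻¹ ^ k - u ^ k) 2 (dsw_a_norm_le β) q hnq
  rw [← hs.tsum_prod, dsw_lambert _ 2 (dsw_a_norm_le β) q hnq]
  rfl

theorem dsw_sig_summable (β : ℝ) (τ : ℍ) :
    Summable fun n : ℕ+ ↦ dsw_sig (cexp (2 * π * I * β)) n * cexp (2 * π * I * τ) ^ (n : ℕ) :=
  dsw_lambert_summable_pnat _ 2 (dsw_a_norm_le β) _ (dsw_norm_q_lt τ)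

theorem dsw_F_zero_eq (β : ℝ) (τ : ℍ) : dsw_F 0 β τ = dsw_pcot β + ∑' m : ℕ, dsw_Zterm β τ m := by
  unfold dsw_F dsw_Z
  simp

theorem dsw_F_zero_hasSum (β : ℝ) (τ : ℍ) :
    HasSum (fun n : ℕ ↦ (if n = 0 then dsw_pcot β
        else 2 * π * I * dsw_sig (cexp (2 * π * I * β)) n) • Function.Periodic.qParam 1 τ ^ n)
      (dsw_F 0 β τ) := by
  rw [dsw_q_eq]
  set u := cexp (2 * π * I * β) with hu
  set q := cexp (2 * π * I * τ) with hq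
  set f : ℕ → ℂ := fun n ↦ (if n = 0 then dsw_pcot β else 2 * π * I * dsw_sig u n) • q ^ n with hf
  have hsum1 : Summable fun n : ℕ ↦ f (n + 1) := by
    have := (summable_pnat_iff_summable_succ
      (f := fun n ↦ dsw_sig u n * q ^ n)).mp (dsw_sig_summable β τ)
    refine (this.mul_left (2 * π * I)).congr fun n ↦ ?_
    simp [hf, mul_assoc]
  have hsum : Summable f := (summable_nat_add_iff 1).mp hsum1
  rw [hsum.hasSum_iff, ← tsum_zero_pnat_eq_tsum_nat hsum, dsw_F_zero_eq, dsw_R_eq_tsum]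
  congr 1
  · simp [hf]
  · rw [← tsum_mul_left]
    refine tsum_congr fun n ↦ ?_
    have : (n : ℕ) ≠ 0 := n.ne_zero
    simp only [hf, this, if_false, smul_eq_mul]
    ring

end
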