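import Fermat.Agent.DS.Wt1.FHol
import Fermat.Agent.DS.Wt1.FQexp
import Fermat.Prelude.Def_FLTPrelim_Modularity

/-!
# DS-D leaf F: the modular forms `E_a` of weight one on `Gamma1 N`
-/

set_option autoImplicit false

open UpperHalfPlane hiding I
open Complex CongruenceSubgroup Filter Topology
open scoped Real MatrixGroups ModularForm Manifold

noncomputable section

theorem dsw_one_mem_strictPeriods_Gamma1 (N : ℕ) :
    (1 : ℝ) ∈ ((Gamma1 N : Subgroup SL(2, ℤ)) : Subgroup (GL (Fin 2) ℝ)).strictPeriods := by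
  have hT : ModularGroup.T ∈ Gamma1 N := by
    rw [Gamma1_mem]
    simp [ModularGroup.T]
  have h := Subgroup.strictPeriods_eq_zmultiples_one_of_T_mem hT
  rw [h]
  exact AddSubgroup.mem_zmultiples (1 : ℝ)

/-- the slash action of `Gamma0 N` on `F_{0, a / N}`. -/
theorem dsw_F_slash_Gamma0 (N : ℕ) [NeZero N] (a : ℤ) (γ : SL(2, ℤ)) (hγ : γ ∈ Gamma0 N) :
    (dsw_F 0 ((a : ℝ) / N)) ∣[(1 : ℤ)] γ = dsw_F 0 (((a * γ 1 1 : ℤ) : ℝ) / N) := by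
  have hN : (N : ℝ) ≠ 0 := Nat.cast_ne_zero.mpr (NeZero.ne N)
  rw [Gamma0_mem] at hγ
  obtain ⟨k, hk⟩ : (N : ℤ) ∣ γ 1 0 := (ZMod.intCast_zmod_eq_zero_iff_dvd _ _).mp hγ
  rw [dsw_F_slash]
  have h := dsw_F_add_int 0 (((a * γ 1 1 : ℤ) : ℝ) / N) (a * k) 0
  rw [← h]
  congr 1
  · rw [hk]
    push_cast
    field_simp
    ring
  · push_cast
    ring

theorem dsw_F_slash_Gamma1 (N : ℕ) [NeZero N] (a : ℤ) (γ : SL(2, ℤ)) (hγ : γ ∈ Gamma1 N) :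
    (dsw_F 0 ((a : ℝ) / N)) ∣[(1 : ℤ)] γ = dsw_F 0 ((a : ℝ) / N) := by
  have hN : (N : ℝ) ≠ 0 := Nat.cast_ne_zero.mpr (NeZero.ne N)
  rw [dsw_F_slash_Gamma0 N a γ (Gamma1_in_Gamma0 N hγ)]
  rw [Gamma1_mem] at hγ
  obtain ⟨l, hl⟩ : (N : ℤ) ∣ γ 1 1 - 1 := by
    rw [← ZMod.intCast_zmod_eq_zero_iff_dvd]
    push_cast
    rw [hγ.2.1]
    ring
  have h := dsw_F_add_int 0 ((a : ℝ) / N) 0 (a * l)
  rw [← h]
  congr 1
  · simp
  · have : γ 1 1 = 1 + N * l := by linarith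
    rw [this]
    push_cast
    field_simp

/-- `E_a = F_{0, a / N}` is a modular form of weight one on `Gamma1 N`. -/
def dsw_E (N : ℕ) [NeZero N] (a : ℤ) : ModularForm (Gamma1 N) 1 where
  toFun := dsw_F 0 ((a : ℝ) / N)
  slash_action_eq' := by
    intro A hA
    obtain ⟨γ, (hγ : γ ∈ Gamma1 N), rfl⟩ := hA
    exact dsw_F_slash_Gamma1 N a γ hγ
  holo' := dsw_F_mdifferentiable _ _
  bdd_at_cusps' := by
    intro c hc
    rw [Subgroup.IsArithmetic.isCusp_iff_isCusp_SL2Z] at hc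
    rw [OnePoint.isBoundedAt_iff_forall_SL2Z hc]
    intro γ _
    show IsBoundedAtImInfty ((dsw_F 0 ((a : ℝ) / N)) ∣[(1 : ℤ)] γ)
    rw [dsw_F_slash]
    exact dsw_F_isBoundedAtImInfty _ _

theorem dsw_E_coe (N : ℕ) [NeZero N] (a : ℤ) :
    (dsw_E N a : ℍ → ℂ) = dsw_F 0 ((a : ℝ) / N) := rfl

/-- the diamond action: for `γ ∈ Gamma0 N` with lower right entry `d`, `E_a ∣ γ = E_{a d}`. -/
theorem dsw_E_slash_Gamma0 (N : ℕ) [NeZero N] (a : ℤ) (γ : SL(2, ℤ)) (hγ : γ ∈ Gamma0 N) :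
    (dsw_E N a : ℍ → ℂ) ∣[(1 : ℤ)] γ = dsw_E N (a * γ 1 1) := by
  rw [dsw_E_coe, dsw_E_coe]
  exact dsw_F_slash_Gamma0 N a γ hγ

theorem dsw_E_qCoeff_aux (N : ℕ) [NeZero N] (a : ℤ) (n : ℕ) :
    (if n = 0 then dsw_pcot (((a : ℝ) / N : ℝ) : ℂ)
      else 2 * π * I * dsw_sig (cexp (2 * π * I * (((a : ℝ) / N : ℝ) : ℂ))) n) =
    ModularFormClass.qCoeff (dsw_E N a) n := by
  unfold ModularFormClass.qCoeff
  exact ModularFormClass.qExpansion_coeff_unique one_pos (dsw_one_mem_strictPeriods_Gamma1 N)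
    (f := dsw_E N a) (fun τ ↦ dsw_F_zero_hasSum ((a : ℝ) / N) τ) n

theorem dsw_E_qCoeff_zero (N : ℕ) [NeZero N] (a : ℤ) :
    ModularFormClass.qCoeff (dsw_E N a) 0 = dsw_pcot ((a : ℂ) / N) := by
  rw [← dsw_E_qCoeff_aux N a 0]
  simp

theorem dsw_exp_eq_zeta_zpow (N : ℕ) (a : ℤ) :
    cexp (2 * π * I * (((a : ℝ) / N : ℝ) : ℂ)) = dsw_zeta N ^ a := by
  unfold dsw_zeta
  rw [← Complex.exp_int_mul]
  congr 1
  push_cast
  ring

theorem dsw_E_qCoeff (N : ℕ) [NeZero N] (a : ℤ) (n : ℕ) (hn : n ≠ 0) :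
    ModularFormClass.qCoeff (dsw_E N a) n = 2 * π * I * dsw_sig (dsw_zeta N ^ a) n := by
  rw [← dsw_E_qCoeff_aux N a n, if_neg hn, dsw_exp_eq_zeta_zpow]

end
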