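import Fermat.Agent.DS.Wt1.Forms

/-!
# DS-D leaf H: a weight one cusp form on `Gamma1 N` times a weight one modular form on `Gamma1 l`
-/

set_option autoImplicit false

open UpperHalfPlane hiding I
open Complex CongruenceSubgroup Filter Topology Matrix.SpecialLinearGroup
open scoped Real MatrixGroups ModularForm Manifold

noncomputable section

theorem dsw_Gamma1_le_of_dvd {M N : ℕ} (h : N ∣ M) : Gamma1 M ≤ Gamma1 N := by
  intro γ hγ
  rw [Gamma1_mem] at hγ ⊢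
  obtain ⟨h00, h11, h10⟩ := hγ
  have hdvd : ∀ x : ℤ, ((x : ZMod M) = 0) → ((x : ZMod N) = 0) := by
    intro x hx
    rw [ZMod.intCast_zmod_eq_zero_iff_dvd] at hx ⊢
    exact dvd_trans (by exact_mod_cast h) hx
  refine ⟨?_, ?_, hdvd _ h10⟩
  · have := hdvd (γ 0 0 - 1) (by push_cast; rw [h00]; ring)
    push_cast at this
    exact sub_eq_zero.mp this
  · have := hdvd (γ 1 1 - 1) (by push_cast; rw [h11]; ring)
    push_cast at this
    exact sub_eq_zero.mp this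

/-- the product, as a cusp form of weight two on `Gamma1 (N l)`. -/
def dsw_mulForm (N l : ℕ) [NeZero N] [NeZero l] (f : CuspForm (Gamma1 N) 1)
    (A : ModularForm (Gamma1 l) 1) : CuspForm (Gamma1 (N * l)) 2 where
  toFun := (f : ℍ → ℂ) * (A : ℍ → ℂ)
  slash_action_eq' := by
    intro B hB
    obtain ⟨γ, (hγ : γ ∈ Gamma1 (N * l)), rfl⟩ := hB
    have h1 : γ ∈ Gamma1 N := dsw_Gamma1_le_of_dvd (Dvd.intro _ rfl) hγ
    have h2 : γ ∈ Gamma1 l := dsw_Gamma1_le_of_dvd (Dvd.intro_left _ rfl) hγ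
    have e1 : (f : ℍ → ℂ) ∣[(1 : ℤ)] γ = f := f.slash_action_eq' _ ⟨γ, h1, rfl⟩
    have e2 : (A : ℍ → ℂ) ∣[(1 : ℤ)] γ = A := A.slash_action_eq' _ ⟨γ, h2, rfl⟩
    show ((f : ℍ → ℂ) * (A : ℍ → ℂ)) ∣[((1 : ℤ) + 1)] γ = (f : ℍ → ℂ) * (A : ℍ → ℂ)
    rw [ModularForm.mul_slash_SL2, e1, e2]
  holo' := f.holo'.mul A.holo'
  zero_at_cusps' := by
    intro c hc
    rw [Subgroup.IsArithmetic.isCusp_iff_isCusp_SL2Z] at hc
    have hcN : IsCusp c (Gamma1 N : Subgroup (GL (Fin 2) ℝ)) :=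
      (Subgroup.IsArithmetic.isCusp_iff_isCusp_SL2Z _).mpr hc
    have hcl : IsCusp c (Gamma1 l : Subgroup (GL (Fin 2) ℝ)) :=
      (Subgroup.IsArithmetic.isCusp_iff_isCusp_SL2Z _).mpr hc
    intro g hg
    have := ((f.zero_at_cusps' hcN g hg).mul_boundedAtFilter (A.bdd_at_cusps' hcl g hg)).smul
      (|(g.det : ℝ)|)
    show IsZeroAtImInfty (((f : ℍ → ℂ) * (A : ℍ → ℂ)) ∣[((1 : ℤ) + 1)] g)
    rw [ModularForm.mul_slash]
    exact this

theorem dsw_mulForm_coe (N l : ℕ) [NeZero N] [NeZero l] (f : CuspForm (Gamma1 N) 1)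
    (A : ModularForm (Gamma1 l) 1) :
    (dsw_mulForm N l f A : ℍ → ℂ) = (f : ℍ → ℂ) * (A : ℍ → ℂ) := rfl

/-- a weight one cusp form on `Gamma1 N` times a weight one modular form on `Gamma1 l` is a
weight two cusp form on `Gamma1 (N l)`; the `q`-expansion is the Cauchy product. -/
theorem dsw_mul_cusp (N l : ℕ) [NeZero N] [NeZero l] (f : CuspForm (Gamma1 N) 1)
    (A : ModularForm (Gamma1 l) 1) :
    ∃ g : CuspForm (Gamma1 (N * l)) 2, (g : ℍ → ℂ) = (f : ℍ → ℂ) * (A : ℍ → ℂ) ∧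
      ∀ n : ℕ, ModularFormClass.qCoeff g n =
        ∑ ij ∈ Finset.HasAntidiagonal.antidiagonal n,
          ModularFormClass.qCoeff f ij.1 * ModularFormClass.qCoeff A ij.2 := by
  refine ⟨dsw_mulForm N l f A, rfl, fun n ↦ ?_⟩
  unfold ModularFormClass.qCoeff
  rw [dsw_mulForm_coe, UpperHalfPlane.qExpansion_mul
    (ModularFormClass.analyticAt_cuspFunction_zero f one_pos (dsw_one_mem_strictPeriods_Gamma1 N))
    (ModularFormClass.analyticAt_cuspFunction_zero A one_pos (dsw_one_mem_strictPeriods_Gamma1 l)),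
    PowerSeries.coeff_mul]

end
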