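import Fermat.Agent.DS.Wt1.Main
import Fermat.Agent.DS.Wt1.Mul

/-!
# DS-D: weight one forms on `Gamma1 N` from torsion points (HUB, no stubs)

Everything announced in `blueprints/S48_D.md` is proved; import this file.

* `dsw_E N a : ModularForm (Gamma1 N) 1` (`Forms.lean`), function `dsw_F 0 (a / N)`;
  `dsw_E_slash_Gamma0`, `dsw_E_qCoeff_zero`, `dsw_E_qCoeff`.
* `dsw_A l d := (dsw_pcot (d / l))⁻¹ • dsw_E l d` (`Main.lean`);
  MAIN 1a `dsw_A_qCoeff_zero`, MAIN 1b `dsw_A_qCoeff`, MAIN 1c `dsw_A_qCoeff_mem`,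
  MAIN 2 `dsw_A_slash_Gamma0` + `dsw_kappa` (`Arith.lean`).
* `dsw_mulForm`, `dsw_mul_cusp` (`Mul.lean`).
* the general functions `dsw_F α β` with `dsw_F_slash`, `dsw_F_add_int`,
  `dsw_F_mdifferentiable`, `dsw_F_isBoundedAtImInfty`, `dsw_F_zero_hasSum`.
-/
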