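import Fermat.Agent.DS.Wt1.ZDiff

/-!
# DS-D leaf C: the transformation law of `Z (w, z)` under `SL(2, ℤ)` (Liouville)
-/

set_option autoImplicit false

open UpperHalfPlane hiding I
open Complex Filter Topology
open scoped Real MatrixGroups

noncomputable section

/-- the period pair `(z, 1)`. -/
def dsw_pair (z : ℍ) : PeriodPair where
  ω₁ := z
  ω₂ := 1
  indep := by
    rw [LinearIndependent.pair_iff]
    intro s t h
    have him := congrArg Complex.im h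
    have hs : s = 0 := by
      simp at him
      rcases him with h1 | h1
      · exact h1
      · exact absurd h1 z.im_ne_zero
    subst hs
    have hre := congrArg Complex.re h
    simp at hre
    exact ⟨rfl, hre⟩

theorem dsw_mem_lattice (z : ℍ) (w : ℂ) :
    w ∈ (dsw_pair z).lattice ↔ ∃ m n : ℤ, w = m * z + n := by
  rw [PeriodPair.mem_lattice]
  constructor
  · rintro ⟨m, n, h⟩
    exact ⟨m, n, by rw [← h]; simp [dsw_pair]⟩
  · rintro ⟨m, n, h⟩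
    exact ⟨m, n, by rw [h]; simp [dsw_pair]⟩

theorem dsw_det (γ : SL(2, ℤ)) : (γ 0 0 : ℂ) * (γ 1 1 : ℂ) - (γ 0 1 : ℂ) * (γ 1 0 : ℂ) = 1 := by
  have := γ.det_coe
  rw [Matrix.det_fin_two] at this
  exact_mod_cast this

theorem dsw_denom (γ : SL(2, ℤ)) (z : ℍ) : denom γ z = (γ 1 0 : ℂ) * z + (γ 1 1 : ℂ) := by
  rw [ModularGroup.denom_apply]

theorem dsw_smul_coe (γ : SL(2, ℤ)) (z : ℍ) :
    ((γ • z : ℍ) : ℂ) = ((γ 0 0 : ℂ) * z + (γ 0 1 : ℂ)) / denom γ z := by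
  rw [dsw_denom, UpperHalfPlane.specialLinearGroup_apply]
  simp

/-- `z / j = -q + s z'`. -/
theorem dsw_z_div (γ : SL(2, ℤ)) (z : ℍ) :
    (z : ℂ) / denom γ z = ((-(γ 0 1) : ℤ) : ℂ) + (γ 1 1 : ℂ) * ((γ • z : ℍ) : ℂ) := by
  have hj : denom γ z ≠ 0 := denom_ne_zero γ z
  rw [dsw_smul_coe]
  field_simp
  rw [dsw_denom]
  push_cast
  linear_combination (-(z : ℂ)) * dsw_det γ

/-- `1 / j = p - r z'`. -/
theorem dsw_one_div (γ : SL(2, ℤ)) (z : ℍ) :
    1 / denom γ z = (γ 0 0 : ℂ) + ((-(γ 1 0) : ℤ) : ℂ) * ((γ • z : ℍ) : ℂ) := by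
  have hj : denom γ z ≠ 0 := denom_ne_zero γ z
  rw [dsw_smul_coe]
  field_simp
  rw [dsw_denom]
  push_cast
  linear_combination (-1 : ℂ) * dsw_det γ

/-- the image of a lattice point. -/
theorem dsw_lattice_div (γ : SL(2, ℤ)) (z : ℍ) (m n : ℤ) :
    ((m : ℂ) * z + n) / denom γ z =
      ((m * γ 1 1 - n * γ 1 0 : ℤ) : ℂ) * ((γ • z : ℍ) : ℂ) + ((n * γ 0 0 - m * γ 0 1 : ℤ) : ℂ) := by
  have e : ((m : ℂ) * z + n) / denom γ z = m * ((z : ℂ) / denom γ z) + n * (1 / denom γ z) := by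
    ring
  rw [e, dsw_z_div, dsw_one_div]
  push_cast
  ring

theorem dsw_Z_zero (z : ℍ) : dsw_Z 0 z = 0 := by
  rw [dsw_Z_eq, dsw_R_zero]
  simp [dsw_pcot, Complex.cot_eq_cos_div_sin]

theorem dsw_Z_lattice (z : ℍ) (m n : ℤ) : dsw_Z ((m : ℂ) * z + n) z = -(2 * π * I * m) := by
  have := dsw_Z_add_lattice 0 z m n
  rw [zero_add, dsw_Z_zero] at this
  rw [this]
  ring

/-- the transformation law at lattice points. -/
theorem dsw_Z_smul_lattice (γ : SL(2, ℤ)) (z : ℍ) (m n : ℤ) :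
    dsw_Z (((m : ℂ) * z + n) / denom γ z) (γ • z) =
      denom γ z * dsw_Z ((m : ℂ) * z + n) z + 2 * π * I * (γ 1 0 : ℂ) * ((m : ℂ) * z + n) := by
  rw [dsw_lattice_div, dsw_Z_lattice, dsw_Z_lattice, dsw_denom]
  push_cast
  ring

/-- the difference of the two sides, set to `0` on the lattice. -/
def dsw_D (γ : SL(2, ℤ)) (z : ℍ) (w : ℂ) : ℂ :=
  letI := Classical.propDecidable
  if w ∈ (dsw_pair z).lattice then 0 else
    dsw_Z (w / denom γ z) (γ • z) - denom γ z * dsw_Z w z - 2 * π * I * (γ 1 0 : ℂ) * w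

theorem dsw_D_of_mem (γ : SL(2, ℤ)) (z : ℍ) {w : ℂ} (hw : w ∈ (dsw_pair z).lattice) :
    dsw_D γ z w = 0 := by
  classical
  simp [dsw_D, hw]

theorem dsw_D_of_notMem (γ : SL(2, ℤ)) (z : ℍ) {w : ℂ} (hw : w ∉ (dsw_pair z).lattice) :
    dsw_D γ z w =
      dsw_Z (w / denom γ z) (γ • z) - denom γ z * dsw_Z w z - 2 * π * I * (γ 1 0 : ℂ) * w := by
  classical
  simp [dsw_D, hw]

theorem dsw_one_mem (z : ℍ) : (1 : ℂ) ∈ (dsw_pair z).lattice :=
  (dsw_pair z).ω₂_mem_lattice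

theorem dsw_z_mem (z : ℍ) : (z : ℂ) ∈ (dsw_pair z).lattice :=
  (dsw_pair z).ω₁_mem_lattice

theorem dsw_add_mem_iff (z : ℍ) {w l : ℂ} (hl : l ∈ (dsw_pair z).lattice) :
    w + l ∈ (dsw_pair z).lattice ↔ w ∈ (dsw_pair z).lattice :=
  (dsw_pair z).lattice.toAddSubgroup.add_mem_cancel_right hl

theorem dsw_D_add_one (γ : SL(2, ℤ)) (z : ℍ) (w : ℂ) : dsw_D γ z (w + 1) = dsw_D γ z w := by
  by_cases hw : w ∈ (dsw_pair z).lattice
  · rw [dsw_D_of_mem γ z hw, dsw_D_of_mem γ z ((dsw_add_mem_iff z (dsw_one_mem z)).mpr hw)]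
  · have hw1 : w + 1 ∉ (dsw_pair z).lattice := fun h ↦ hw ((dsw_add_mem_iff z (dsw_one_mem z)).mp h)
    rw [dsw_D_of_notMem γ z hw, dsw_D_of_notMem γ z hw1]
    have e : (w + 1) / denom γ z = w / denom γ z +
        (((-(γ 1 0) : ℤ) : ℂ) * ((γ • z : ℍ) : ℂ) + ((γ 0 0 : ℤ) : ℂ)) := by
      rw [add_div, dsw_one_div]
      ring
    rw [e, dsw_Z_add_lattice, dsw_Z_add_one]
    push_cast
    ring

theorem dsw_D_add_z (γ : SL(2, ℤ)) (z : ℍ) (w : ℂ) : dsw_D γ z (w + z) = dsw_D γ z w := by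
  by_cases hw : w ∈ (dsw_pair z).lattice
  · rw [dsw_D_of_mem γ z hw, dsw_D_of_mem γ z ((dsw_add_mem_iff z (dsw_z_mem z)).mpr hw)]
  · have hw1 : w + z ∉ (dsw_pair z).lattice := fun h ↦ hw ((dsw_add_mem_iff z (dsw_z_mem z)).mp h)
    rw [dsw_D_of_notMem γ z hw, dsw_D_of_notMem γ z hw1]
    have e : (w + z) / denom γ z = w / denom γ z +
        (((γ 1 1 : ℤ) : ℂ) * ((γ • z : ℍ) : ℂ) + ((-(γ 0 1) : ℤ) : ℂ)) := by
      rw [add_div, dsw_z_div]
      ring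
    rw [e, dsw_Z_add_lattice, dsw_Z_add_z, dsw_denom]
    ring

theorem dsw_D_add_nat_mul (γ : SL(2, ℤ)) (z : ℍ) (w a : ℂ)
    (ha : ∀ w, dsw_D γ z (w + a) = dsw_D γ z w) (k : ℕ) :
    dsw_D γ z (w + k * a) = dsw_D γ z w := by
  induction k with
  | zero => simp
  | succ k ih =>
    have e : w + ((k + 1 : ℕ) : ℂ) * a = (w + k * a) + a := by push_cast; ring
    rw [e, ha, ih]

theorem dsw_D_add_int_mul (γ : SL(2, ℤ)) (z : ℍ) (w a : ℂ)
    (ha : ∀ w, dsw_D γ z (w + a) = dsw_D γ z w) (k : ℤ) :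
    dsw_D γ z (w + k * a) = dsw_D γ z w := by
  rcases Int.eq_nat_or_neg k with ⟨n, rfl | rfl⟩
  · simpa using dsw_D_add_nat_mul γ z w a ha n
  · have h := dsw_D_add_nat_mul γ z (w + ((-(n : ℤ) : ℤ) : ℂ) * a) a ha n
    have e : w + ((-(n : ℤ) : ℤ) : ℂ) * a + (n : ℂ) * a = w := by push_cast; ring
    rw [e] at h
    exact h.symm

theorem dsw_D_add_lattice (γ : SL(2, ℤ)) (z : ℍ) (w l : ℂ) (hl : l ∈ (dsw_pair z).lattice) :
    dsw_D γ z (w + l) = dsw_D γ z w := by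
  obtain ⟨m, n, rfl⟩ := (dsw_mem_lattice z l).mp hl
  have e : w + ((m : ℂ) * z + n) = (w + (m : ℂ) * z) + (n : ℂ) * 1 := by ring
  rw [e, dsw_D_add_int_mul γ z _ 1 (dsw_D_add_one γ z) n,
    dsw_D_add_int_mul γ z _ z (dsw_D_add_z γ z) m]

/-- `w / j` is not in the lattice of `γ z` if `w` is not in the lattice of `z`. -/
theorem dsw_div_notMem (γ : SL(2, ℤ)) (z : ℍ) {w : ℂ} (hw : w ∉ (dsw_pair z).lattice)
    (m n : ℤ) : w / denom γ z ≠ m * ((γ • z : ℍ) : ℂ) + n := by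
  have hj : denom γ z ≠ 0 := denom_ne_zero γ z
  intro h
  apply hw
  rw [dsw_mem_lattice]
  refine ⟨m * γ 0 0 + n * γ 1 0, m * γ 0 1 + n * γ 1 1, ?_⟩
  have h2 : w = (m * ((γ • z : ℍ) : ℂ) + n) * denom γ z := by
    rw [← h]; field_simp
  rw [h2, dsw_smul_coe]
  field_simp
  rw [dsw_denom]
  push_cast
  ring

theorem dsw_D_differentiableAt_of_notMem (γ : SL(2, ℤ)) (z : ℍ) {w : ℂ}
    (hw : w ∉ (dsw_pair z).lattice) : DifferentiableAt ℂ (dsw_D γ z) w := by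
  have hopen : IsOpen ((dsw_pair z).lattice : Set ℂ)ᶜ := (dsw_pair z).isClosed_lattice.isOpen_compl
  have hev : (fun w ↦ dsw_Z (w / denom γ z) (γ • z) - denom γ z * dsw_Z w z -
      2 * π * I * (γ 1 0 : ℂ) * w) =ᶠ[𝓝 w] dsw_D γ z := by
    filter_upwards [hopen.mem_nhds hw] with x hx
    exact (dsw_D_of_notMem γ z hx).symm
  refine DifferentiableAt.congr_of_eventuallyEq ?_ hev.symm
  have d1 : DifferentiableAt ℂ (fun w ↦ dsw_Z (w / denom γ z) (γ • z)) w := by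
    have := dsw_Z_differentiableAt (γ • z) (w := w / denom γ z) (dsw_div_notMem γ z hw)
    exact DifferentiableAt.comp (f := fun w : ℂ ↦ w / denom γ z) w this (by fun_prop)
  have d2 : DifferentiableAt ℂ (fun w ↦ dsw_Z w z) w := by
    apply dsw_Z_differentiableAt
    intro m n h
    exact hw ((dsw_mem_lattice z w).mpr ⟨m, n, h⟩)
  exact (d1.sub (d2.const_mul _)).sub ((differentiableAt_id).const_mul _)

theorem dsw_D_tendsto_zero (γ : SL(2, ℤ)) (z : ℍ) :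
    Tendsto (dsw_D γ z) (𝓝[≠] 0) (𝓝 0) := by
  have hj : denom γ z ≠ 0 := denom_ne_zero γ z
  -- the three pieces
  have t1 : Tendsto (fun w : ℂ ↦ dsw_Z (w / denom γ z) (γ • z) - 1 / (w / denom γ z))
      (𝓝[≠] 0) (𝓝 0) := by
    have hmap : Tendsto (fun w : ℂ ↦ w / denom γ z) (𝓝[≠] 0) (𝓝[≠] 0) := by
      apply tendsto_nhdsWithin_of_tendsto_nhds_of_eventually_within
      · have : Tendsto (fun w : ℂ ↦ w / denom γ z) (𝓝 0) (𝓝 (0 / denom γ z)) :=
          (continuous_id.div_const _).tendsto 0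
        rw [zero_div] at this
        exact this.mono_left nhdsWithin_le_nhds
      · filter_upwards [self_mem_nhdsWithin] with w hw
        exact div_ne_zero hw hj
    exact (dsw_Z_sub_inv_tendsto (γ • z)).comp hmap
  have t2 : Tendsto (fun w : ℂ ↦ denom γ z * (dsw_Z w z - 1 / w)) (𝓝[≠] 0) (𝓝 0) := by
    simpa using (dsw_Z_sub_inv_tendsto z).const_mul (denom γ z)
  have t3 : Tendsto (fun w : ℂ ↦ 2 * π * I * (γ 1 0 : ℂ) * w) (𝓝[≠] 0) (𝓝 0) := by
    have : Tendsto (fun w : ℂ ↦ 2 * π * I * (γ 1 0 : ℂ) * w) (𝓝 0)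
        (𝓝 (2 * π * I * (γ 1 0 : ℂ) * 0)) := (continuous_const.mul continuous_id).tendsto 0
    rw [mul_zero] at this
    exact this.mono_left nhdsWithin_le_nhds
  have t := (t1.sub t2).sub t3
  simp only [sub_zero] at t
  refine t.congr' ?_
  have hnhds : ∀ᶠ w in 𝓝[≠] (0 : ℂ), w ∉ (dsw_pair z).lattice := by
    have h1 : ∀ᶠ w in 𝓝[≠] (0 : ℂ), w ∈ (((dsw_pair z).lattice : Set ℂ) \ {0})ᶜ :=
      mem_nhdsWithin_of_mem_nhds ((dsw_pair z).compl_lattice_sdiff_singleton_mem_nhds 0)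
    filter_upwards [h1, self_mem_nhdsWithin] with w hw hw0
    intro hmem
    exact hw ⟨hmem, hw0⟩
  filter_upwards [hnhds, self_mem_nhdsWithin] with w hw hw0
  have hw0' : w ≠ 0 := hw0
  rw [dsw_D_of_notMem γ z hw]
  field_simp
  ring

theorem dsw_D_zero (γ : SL(2, ℤ)) (z : ℍ) : dsw_D γ z 0 = 0 :=
  dsw_D_of_mem γ z (zero_mem _)

theorem dsw_D_analyticAt_zero (γ : SL(2, ℤ)) (z : ℍ) : AnalyticAt ℂ (dsw_D γ z) 0 := by
  apply Complex.analyticAt_of_differentiable_on_punctured_nhds_of_continuousAt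
  · have h1 : ∀ᶠ w in 𝓝[≠] (0 : ℂ), w ∈ (((dsw_pair z).lattice : Set ℂ) \ {0})ᶜ :=
      mem_nhdsWithin_of_mem_nhds ((dsw_pair z).compl_lattice_sdiff_singleton_mem_nhds 0)
    filter_upwards [h1, self_mem_nhdsWithin] with w hw hw0
    apply dsw_D_differentiableAt_of_notMem
    intro hmem
    exact hw ⟨hmem, hw0⟩
  · have := dsw_D_tendsto_zero γ z
    rw [← continuousWithinAt_compl_self, ContinuousWithinAt, dsw_D_zero]
    exact this

theorem dsw_D_differentiable (γ : SL(2, ℤ)) (z : ℍ) : Differentiable ℂ (dsw_D γ z) := by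
  intro x
  by_cases hx : x ∈ (dsw_pair z).lattice
  · have h0 := (dsw_D_analyticAt_zero γ z).differentiableAt
    have hfun : dsw_D γ z = fun w ↦ dsw_D γ z (w - x) := by
      funext w
      have := dsw_D_add_lattice γ z (w - x) x hx
      rw [sub_add_cancel] at this
      exact this
    rw [hfun]
    have h0' : DifferentiableAt ℂ (dsw_D γ z) (x - x) := by rw [sub_self]; exact h0
    exact DifferentiableAt.comp (f := fun w : ℂ ↦ w - x) x h0' (by fun_prop)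
  · exact dsw_D_differentiableAt_of_notMem γ z hx

theorem dsw_D_eq_zero (γ : SL(2, ℤ)) (z : ℍ) (w : ℂ) : dsw_D γ z w = 0 := by
  have hd := dsw_D_differentiable γ z
  have hb := (IsZLattice.isCompact_range_of_periodic (dsw_pair z).lattice (dsw_D γ z)
    hd.continuous (fun x l hl ↦ dsw_D_add_lattice γ z x l hl)).isBounded
  rw [hd.apply_eq_apply_of_bounded hb w 0, dsw_D_zero]

/-- `Z (w / (c z + d), γ z) = (c z + d) Z (w, z) + 2 π i c w`, every `w`. -/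
theorem dsw_Z_smul (γ : SL(2, ℤ)) (z : ℍ) (w : ℂ) :
    dsw_Z (w / denom γ z) (γ • z) =
      denom γ z * dsw_Z w z + 2 * π * I * (γ 1 0 : ℂ) * w := by
  by_cases hw : w ∈ (dsw_pair z).lattice
  · obtain ⟨m, n, rfl⟩ := (dsw_mem_lattice z w).mp hw
    exact dsw_Z_smul_lattice γ z m n
  · have := dsw_D_eq_zero γ z w
    rw [dsw_D_of_notMem γ z hw] at this
    linear_combination this

end
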