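import Fermat.Agent.DS.Wt1.ZSum

/-!
# DS-D leaf B2: the cotangent series `Z (w, z)`: holomorphy in `w`, the pole at `0`
-/

set_option autoImplicit false

open UpperHalfPlane hiding I
open Complex Filter Topology
open scoped Real

noncomputable section

/-- the regular part of `Z`. -/
def dsw_R (w : ℂ) (z : ℍ) : ℂ := ∑' m : ℕ, dsw_Zterm w z m

theorem dsw_Z_eq (w : ℂ) (z : ℍ) : dsw_Z w z = dsw_pcot w + dsw_R w z := rfl

/-- bound of the terms on a strip `|im w| ≤ B < im z`, all `m`. -/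
theorem dsw_Zterm_norm_le_strip (w : ℂ) (z : ℍ) (m : ℕ) {B : ℝ} (hB : B < z.im)
    (hw : |w.im| ≤ B) :
    ‖dsw_Zterm w z m‖ ≤
      2 * (2 * π / (1 - Real.exp (-(2 * π * (z.im - B))))) * Real.exp (2 * π * B) *
        Real.exp (-(2 * π * z.im)) ^ (m + 1) := by
  have hy := z.im_pos
  have hpi := Real.pi_pos
  have hδ : 0 < z.im - B := by linarith
  have habs1 : -|w.im| ≤ w.im := neg_abs_le _
  have habs2 : w.im ≤ |w.im| := le_abs_self _
  have hm : (0 : ℝ) ≤ m := Nat.cast_nonneg m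
  have hmy : z.im ≤ ((m : ℝ) + 1) * z.im := by nlinarith
  have him1 : (w + ((m : ℂ) + 1) * z).im = w.im + ((m : ℝ) + 1) * z.im := by
    simp [Complex.add_im, Complex.mul_im]
  have him2 : (w - ((m : ℂ) + 1) * z).im = w.im - ((m : ℝ) + 1) * z.im := by
    simp [Complex.sub_im, Complex.mul_im]
  have hpow : Real.exp (-(2 * π * z.im)) ^ (m + 1) =
      Real.exp (-(2 * π * (((m : ℝ) + 1) * z.im))) := by
    rw [← Real.exp_nat_mul]
    congr 1
    push_cast
    ring
  have b1 := dsw_pcot_add_norm_le (x := w + ((m : ℂ) + 1) * z) hδ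
    (by rw [him1]; linarith)
  have b2 := dsw_pcot_sub_norm_le (x := w - ((m : ℂ) + 1) * z) hδ
    (by rw [him2]; linarith)
  rw [him1] at b1
  rw [him2] at b2
  have e : dsw_Zterm w z m = (dsw_pcot (w + ((m : ℂ) + 1) * z) + π * I) +
      (dsw_pcot (w - ((m : ℂ) + 1) * z) - π * I) := by
    unfold dsw_Zterm; ring
  rw [e]
  refine le_trans (norm_add_le _ _) ?_
  set C := 2 * π / (1 - Real.exp (-(2 * π * (z.im - B)))) with hCdef
  have hC : 0 < C := by
    have hlt : Real.exp (-(2 * π * (z.im - B))) < 1 := by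
      rw [Real.exp_lt_one_iff]
      nlinarith
    apply div_pos <;> linarith
  have k1 : Real.exp (-(2 * π * (w.im + ((m : ℝ) + 1) * z.im))) ≤
      Real.exp (2 * π * B) * Real.exp (-(2 * π * (((m : ℝ) + 1) * z.im))) := by
    rw [← Real.exp_add]
    apply Real.exp_le_exp.mpr
    nlinarith
  have k2 : Real.exp (2 * π * (w.im - ((m : ℝ) + 1) * z.im)) ≤
      Real.exp (2 * π * B) * Real.exp (-(2 * π * (((m : ℝ) + 1) * z.im))) := by
    rw [← Real.exp_add]
    apply Real.exp_le_exp.mpr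
    nlinarith
  rw [hpow]
  have b1' : ‖dsw_pcot (w + ((m : ℂ) + 1) * z) + π * I‖ ≤ C *
      (Real.exp (2 * π * B) * Real.exp (-(2 * π * (((m : ℝ) + 1) * z.im)))) :=
    le_trans b1 (mul_le_mul_of_nonneg_left k1 hC.le)
  have b2' : ‖dsw_pcot (w - ((m : ℂ) + 1) * z) - π * I‖ ≤ C *
      (Real.exp (2 * π * B) * Real.exp (-(2 * π * (((m : ℝ) + 1) * z.im)))) :=
    le_trans b2 (mul_le_mul_of_nonneg_left k2 hC.le)
  linarith

theorem dsw_strip_isOpen (B : ℝ) : IsOpen {w : ℂ | |w.im| < B} :=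
  isOpen_lt (continuous_abs.comp Complex.continuous_im) continuous_const

theorem dsw_Zterm_differentiableAt (z : ℍ) (m : ℕ) {w : ℂ} (hw : |w.im| < z.im) :
    DifferentiableAt ℂ (fun w ↦ dsw_Zterm w z m) w := by
  have hy := z.im_pos
  have hm : (0 : ℝ) ≤ m := Nat.cast_nonneg m
  have hmy : z.im ≤ ((m : ℝ) + 1) * z.im := by nlinarith
  have habs := abs_lt.mp hw
  have him1 : (w + ((m : ℂ) + 1) * z).im = w.im + ((m : ℝ) + 1) * z.im := by
    simp [Complex.add_im, Complex.mul_im]
  have him2 : (w - ((m : ℂ) + 1) * z).im = w.im - ((m : ℝ) + 1) * z.im := by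
    simp [Complex.sub_im, Complex.mul_im]
  have d1 : DifferentiableAt ℂ dsw_pcot (w + ((m : ℂ) + 1) * z) := by
    apply dsw_pcot_differentiableAt
    intro n hn
    have := congrArg Complex.im hn
    rw [him1] at this
    simp at this
    linarith [habs.1]
  have d2 : DifferentiableAt ℂ dsw_pcot (w - ((m : ℂ) + 1) * z) := by
    apply dsw_pcot_differentiableAt
    intro n hn
    have := congrArg Complex.im hn
    rw [him2] at this
    simp at this
    linarith [habs.2]
  unfold dsw_Zterm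
  apply DifferentiableAt.add
  · exact DifferentiableAt.comp (f := fun w : ℂ ↦ w + ((m : ℂ) + 1) * z) w d1 (by fun_prop)
  · exact DifferentiableAt.comp (f := fun w : ℂ ↦ w - ((m : ℂ) + 1) * z) w d2 (by fun_prop)

theorem dsw_R_differentiableOn (z : ℍ) {B : ℝ} (hB : B < z.im) :
    DifferentiableOn ℂ (fun w ↦ dsw_R w z) {w : ℂ | |w.im| < B} := by
  unfold dsw_R
  have hgeo : Summable (fun m : ℕ ↦
      2 * (2 * π / (1 - Real.exp (-(2 * π * (z.im - B))))) * Real.exp (2 * π * B) *
        Real.exp (-(2 * π * z.im)) ^ (m + 1)) := by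
    apply Summable.mul_left
    have := summable_geometric_of_lt_one (Real.exp_pos _).le (dsw_exp_lt_one z)
    exact (summable_nat_add_iff 1).mpr this
  apply differentiableOn_tsum_of_summable_norm hgeo
  · intro m w hw
    exact (dsw_Zterm_differentiableAt z m (lt_trans hw hB)).differentiableWithinAt
  · exact dsw_strip_isOpen B
  · intro m w hw
    exact dsw_Zterm_norm_le_strip w z m hB (le_of_lt hw)

theorem dsw_R_differentiableAt (z : ℍ) {w : ℂ} (hw : |w.im| < z.im) :
    DifferentiableAt ℂ (fun w ↦ dsw_R w z) w := by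
  have hB : (|w.im| + z.im) / 2 < z.im := by linarith
  have hmem : w ∈ {w : ℂ | |w.im| < (|w.im| + z.im) / 2} := by
    show |w.im| < (|w.im| + z.im) / 2
    linarith
  exact (dsw_R_differentiableOn z hB).differentiableAt
    ((dsw_strip_isOpen _).mem_nhds hmem)

theorem dsw_R_zero (z : ℍ) : dsw_R 0 z = 0 := by
  unfold dsw_R
  have : ∀ m : ℕ, dsw_Zterm 0 z m = 0 := by
    intro m
    unfold dsw_Zterm
    rw [zero_sub, dsw_pcot_neg, zero_add]
    ring
  simp [this]

/-- `Z (·, z)` is holomorphic at non-integral points of the strip `|im w| < im z`. -/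
theorem dsw_Z_differentiableAt_strip (z : ℍ) {w : ℂ} (hw : |w.im| < z.im)
    (hn : ∀ n : ℤ, w ≠ n) : DifferentiableAt ℂ (fun w ↦ dsw_Z w z) w := by
  have : (fun w ↦ dsw_Z w z) = fun w ↦ dsw_pcot w + dsw_R w z := by
    funext w; rfl
  rw [this]
  exact (dsw_pcot_differentiableAt hn).add (dsw_R_differentiableAt z hw)

theorem dsw_Z_differentiableAt (z : ℍ) {w : ℂ} (hw : ∀ m n : ℤ, w ≠ m * z + n) :
    DifferentiableAt ℂ (fun w ↦ dsw_Z w z) w := by
  have hy := z.im_pos
  set k : ℤ := round (w.im / z.im) with hk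
  have hround : |w.im / z.im - k| ≤ 1 / 2 := abs_sub_round _
  have hstrip : |(w - (k : ℂ) * z).im| < z.im := by
    have e : (w - (k : ℂ) * z).im = (w.im / z.im - k) * z.im := by
      simp [Complex.sub_im, Complex.mul_im]
      field_simp
    rw [e, abs_mul, abs_of_pos hy]
    nlinarith
  have hnint : ∀ n : ℤ, w - (k : ℂ) * z ≠ n := by
    intro n hn
    apply hw k n
    rw [← hn]
    ring
  have hfun : (fun w ↦ dsw_Z w z) = fun w ↦ dsw_Z (w - (k : ℂ) * z) z - 2 * π * I * k := by
    funext w'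
    have := dsw_Z_add_int_mul (w' - (k : ℂ) * z) z k
    rw [sub_add_cancel] at this
    exact this
  rw [hfun]
  apply DifferentiableAt.sub_const
  exact DifferentiableAt.comp (f := fun w : ℂ ↦ w - (k : ℂ) * z) w
    (dsw_Z_differentiableAt_strip z hstrip hnint) (by fun_prop)

/-- simple pole with residue one at the origin, no constant term. -/
theorem dsw_Z_sub_inv_tendsto (z : ℍ) :
    Tendsto (fun w : ℂ ↦ dsw_Z w z - 1 / w) (𝓝[≠] 0) (𝓝 0) := by
  have h0 : |(0 : ℂ).im| < z.im := by simpa using z.im_pos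
  have hR : Tendsto (fun w : ℂ ↦ dsw_R w z) (𝓝[≠] 0) (𝓝 0) := by
    have := (dsw_R_differentiableAt z h0).continuousAt.tendsto
    rw [dsw_R_zero] at this
    exact this.mono_left nhdsWithin_le_nhds
  have := dsw_pcot_sub_inv_tendsto.add hR
  rw [add_zero] at this
  refine this.congr (fun w ↦ ?_)
  rw [dsw_Z_eq]
  ring

end
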