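import Fermat.Agent.DS.Wt1.FSlash

/-!
# DS-D leaf D2: the functions `F_{α, β}` are holomorphic on `ℍ` and bounded at `i∞`
-/

set_option autoImplicit false

open UpperHalfPlane hiding I
open Complex Filter Topology
open scoped Real MatrixGroups ModularForm Manifold

noncomputable section

/-- the `m`-th term of `F_{α, β}` as a function of a complex variable. -/
def dsw_T (α β : ℝ) (m : ℕ) (z : ℂ) : ℂ :=
  dsw_pcot ((α : ℂ) * z + β + ((m : ℂ) + 1) * z) + dsw_pcot ((α : ℂ) * z + β - ((m : ℂ) + 1) * z)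

/-- `F_{α, β}` as a function of a complex variable. -/
def dsw_Fc (α β : ℝ) (z : ℂ) : ℂ :=
  dsw_pcot ((α : ℂ) * z + β) + ∑' m : ℕ, dsw_T α β m z + 2 * π * I * α

theorem dsw_F_eq_Fc (α β : ℝ) (z : ℍ) : dsw_F α β z = dsw_Fc α β (z : ℂ) := rfl

/-- the constant of leaf A. -/
def dsw_Cd (ε : ℝ) : ℝ := 2 * π / (1 - Real.exp (-(2 * π * ε)))

theorem dsw_Cd_pos {ε : ℝ} (hε : 0 < ε) : 0 < dsw_Cd ε := by
  unfold dsw_Cd
  have hpi := Real.pi_pos
  have hlt : Real.exp (-(2 * π * ε)) < 1 := by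
    rw [Real.exp_lt_one_iff]
    nlinarith
  apply div_pos <;> linarith

theorem dsw_T_im1 (α β : ℝ) (m : ℕ) (z : ℂ) :
    ((α : ℂ) * z + β + ((m : ℂ) + 1) * z).im = (α + m + 1) * z.im := by
  simp [Complex.add_im, Complex.mul_im]
  ring

theorem dsw_T_im2 (α β : ℝ) (m : ℕ) (z : ℂ) :
    ((α : ℂ) * z + β - ((m : ℂ) + 1) * z).im = -((m + 1 - α) * z.im) := by
  simp [Complex.add_im, Complex.sub_im, Complex.mul_im]
  ring

/-- the uniform bound on `im z ≥ δ`, for `0 ≤ α < 1`. -/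
theorem dsw_T_norm_le {α : ℝ} (β : ℝ) (hα0 : 0 ≤ α) (hα1 : α < 1) {δ : ℝ} (hδ : 0 < δ)
    {z : ℂ} (hz : δ ≤ z.im) (m : ℕ) :
    ‖dsw_T α β m z‖ ≤
      2 * dsw_Cd ((1 - α) * δ) * Real.exp (-(2 * π * ((1 - α) * δ))) ^ (m + 1) := by
  have hpi := Real.pi_pos
  set ε := (1 - α) * δ with hε
  have hεpos : 0 < ε := mul_pos (by linarith) hδ
  have hm : (0 : ℝ) ≤ m := Nat.cast_nonneg m
  have hzpos : 0 < z.im := lt_of_lt_of_le hδ hz
  -- lower bounds for the imaginary parts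
  have hlow : ((m : ℝ) + 1) * ε ≤ (m + 1 - α) * z.im := by
    have h1 : ((m : ℝ) + 1) * (1 - α) ≤ m + 1 - α := by nlinarith
    have h2 : ((m : ℝ) + 1) * (1 - α) * δ ≤ (m + 1 - α) * δ :=
      mul_le_mul_of_nonneg_right h1 hδ.le
    have h3 : ((m : ℝ) + 1 - α) * δ ≤ (m + 1 - α) * z.im :=
      mul_le_mul_of_nonneg_left hz (by linarith)
    calc ((m : ℝ) + 1) * ε = ((m : ℝ) + 1) * (1 - α) * δ := by rw [hε]; ring
      _ ≤ _ := le_trans h2 h3
  have hlow1 : ((m : ℝ) + 1) * ε ≤ (α + m + 1) * z.im := by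
    have : ((m : ℝ) + 1 - α) * z.im ≤ (α + m + 1) * z.im :=
      mul_le_mul_of_nonneg_right (by linarith) hzpos.le
    linarith
  have hε1 : ε ≤ ((m : ℝ) + 1) * ε := by nlinarith
  have hpow : Real.exp (-(2 * π * ε)) ^ (m + 1) = Real.exp (-(2 * π * (((m : ℝ) + 1) * ε))) := by
    rw [← Real.exp_nat_mul]
    congr 1
    push_cast
    ring
  have b1 := dsw_pcot_add_norm_le (x := (α : ℂ) * z + β + ((m : ℂ) + 1) * z) hεpos
    (by rw [dsw_T_im1]; linarith)
  have b2 := dsw_pcot_sub_norm_le (x := (α : ℂ) * z + β - ((m : ℂ) + 1) * z) hεpos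
    (by rw [dsw_T_im2]; linarith)
  rw [dsw_T_im1] at b1
  rw [dsw_T_im2] at b2
  have e : dsw_T α β m z = (dsw_pcot ((α : ℂ) * z + β + ((m : ℂ) + 1) * z) + π * I) +
      (dsw_pcot ((α : ℂ) * z + β - ((m : ℂ) + 1) * z) - π * I) := by
    unfold dsw_T; ring
  rw [e, hpow]
  refine le_trans (norm_add_le _ _) ?_
  have hC := dsw_Cd_pos hεpos
  have k1 : Real.exp (-(2 * π * ((α + m + 1) * z.im))) ≤
      Real.exp (-(2 * π * (((m : ℝ) + 1) * ε))) := by
    apply Real.exp_le_exp.mpr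
    nlinarith
  have k2 : Real.exp (2 * π * -((m + 1 - α) * z.im)) ≤
      Real.exp (-(2 * π * (((m : ℝ) + 1) * ε))) := by
    apply Real.exp_le_exp.mpr
    nlinarith
  have b1' := le_trans b1 (mul_le_mul_of_nonneg_left k1 hC.le)
  have b2' := le_trans b2 (mul_le_mul_of_nonneg_left k2 hC.le)
  unfold dsw_Cd at hC b1' b2' ⊢
  linarith

theorem dsw_T_differentiableAt (α β : ℝ) (hα0 : 0 ≤ α) (hα1 : α < 1) (m : ℕ) {z : ℂ}
    (hz : 0 < z.im) : DifferentiableAt ℂ (dsw_T α β m) z := by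
  have hm : (0 : ℝ) ≤ m := Nat.cast_nonneg m
  have d1 : DifferentiableAt ℂ dsw_pcot ((α : ℂ) * z + β + ((m : ℂ) + 1) * z) := by
    apply dsw_pcot_differentiableAt
    intro n hn
    have := congrArg Complex.im hn
    rw [dsw_T_im1] at this
    simp at this
    rcases this with h | h
    · linarith
    · linarith
  have d2 : DifferentiableAt ℂ dsw_pcot ((α : ℂ) * z + β - ((m : ℂ) + 1) * z) := by
    apply dsw_pcot_differentiableAt
    intro n hn
    have := congrArg Complex.im hn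
    rw [dsw_T_im2] at this
    simp at this
    rcases this with h | h
    · linarith
    · linarith
  unfold dsw_T
  apply DifferentiableAt.add
  · exact DifferentiableAt.comp (f := fun z : ℂ ↦ (α : ℂ) * z + β + ((m : ℂ) + 1) * z) z d1
      (by fun_prop)
  · exact DifferentiableAt.comp (f := fun z : ℂ ↦ (α : ℂ) * z + β - ((m : ℂ) + 1) * z) z d2
      (by fun_prop)

theorem dsw_geo_summable (C ρ : ℝ) (hρ0 : 0 ≤ ρ) (hρ1 : ρ < 1) :
    Summable (fun m : ℕ ↦ C * ρ ^ (m + 1)) := by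
  apply Summable.mul_left
  exact (summable_nat_add_iff 1).mpr (summable_geometric_of_lt_one hρ0 hρ1)

theorem dsw_rho_lt_one {ε : ℝ} (hε : 0 < ε) : Real.exp (-(2 * π * ε)) < 1 := by
  rw [Real.exp_lt_one_iff]
  have := Real.pi_pos
  nlinarith

theorem dsw_first_differentiableAt (α β : ℝ) (hα0 : 0 ≤ α) {z : ℂ} (hz : 0 < z.im) :
    DifferentiableAt ℂ (fun z : ℂ ↦ dsw_pcot ((α : ℂ) * z + β)) z := by
  rcases eq_or_lt_of_le hα0 with h | h
  · subst h
    simp
  · have d : DifferentiableAt ℂ dsw_pcot ((α : ℂ) * z + β) := by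
      apply dsw_pcot_differentiableAt
      intro n hn
      have := congrArg Complex.im hn
      simp [Complex.add_im, Complex.mul_im] at this
      rcases this with h' | h'
      · linarith
      · linarith
    exact DifferentiableAt.comp (f := fun z : ℂ ↦ (α : ℂ) * z + β) z d (by fun_prop)

theorem dsw_Fc_differentiableOn (α β : ℝ) (hα0 : 0 ≤ α) (hα1 : α < 1) {δ : ℝ} (hδ : 0 < δ) :
    DifferentiableOn ℂ (dsw_Fc α β) {z : ℂ | δ < z.im} := by
  have hopen : IsOpen {z : ℂ | δ < z.im} := isOpen_lt continuous_const Complex.continuous_im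
  have hεpos : 0 < (1 - α) * δ := mul_pos (by linarith) hδ
  have hsum : DifferentiableOn ℂ (fun z : ℂ ↦ ∑' m : ℕ, dsw_T α β m z) {z : ℂ | δ < z.im} := by
    apply differentiableOn_tsum_of_summable_norm
      (dsw_geo_summable (2 * dsw_Cd ((1 - α) * δ)) _ (Real.exp_pos _).le (dsw_rho_lt_one hεpos))
    · intro m z hz
      exact (dsw_T_differentiableAt α β hα0 hα1 m (lt_trans hδ hz)).differentiableWithinAt
    · exact hopen
    · intro m z hz
      exact dsw_T_norm_le β hα0 hα1 hδ (le_of_lt hz) m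
  have hfirst : DifferentiableOn ℂ (fun z : ℂ ↦ dsw_pcot ((α : ℂ) * z + β)) {z : ℂ | δ < z.im} :=
    fun z hz ↦ (dsw_first_differentiableAt α β hα0 (lt_trans hδ hz)).differentiableWithinAt
  unfold dsw_Fc
  exact (hfirst.add hsum).add_const _

theorem dsw_F_mdifferentiable_aux (α β : ℝ) (hα0 : 0 ≤ α) (hα1 : α < 1) :
    MDiff (dsw_F α β) := by
  rw [UpperHalfPlane.mdifferentiable_iff]
  intro z hz
  have hz' : 0 < z.im := hz
  have hopen : IsOpen {w : ℂ | z.im / 2 < w.im} := isOpen_lt continuous_const Complex.continuous_im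
  have hmem : z ∈ {w : ℂ | z.im / 2 < w.im} := by
    show z.im / 2 < z.im
    linarith
  have hd := (dsw_Fc_differentiableOn α β hα0 hα1 (half_pos hz')).differentiableAt
    (hopen.mem_nhds hmem)
  apply DifferentiableAt.differentiableWithinAt
  refine hd.congr_of_eventuallyEq ?_
  filter_upwards [isOpen_upperHalfPlaneSet.mem_nhds hz] with w hw
  simp only [Function.comp_apply]
  rw [dsw_F_eq_Fc, ofComplex_apply_of_im_pos hw]

theorem dsw_F_fract (α β : ℝ) : dsw_F α β = dsw_F (Int.fract α) β := by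
  have := dsw_F_add_int (Int.fract α) β ⌊α⌋ 0
  simp only [Int.cast_zero, add_zero] at this
  rw [← this, Int.fract_add_floor]

theorem dsw_F_mdifferentiable (α β : ℝ) : MDiff (dsw_F α β) := by
  rw [dsw_F_fract]
  exact dsw_F_mdifferentiable_aux _ β (Int.fract_nonneg α) (Int.fract_lt_one α)

theorem dsw_first_norm_le (α β : ℝ) (hα0 : 0 ≤ α) :
    ∃ M : ℝ, ∀ z : ℂ, 1 ≤ z.im → ‖dsw_pcot ((α : ℂ) * z + β)‖ ≤ M := by
  rcases eq_or_lt_of_le hα0 with h | h
  · subst h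
    exact ⟨‖dsw_pcot (β : ℂ)‖, fun z _ ↦ by simp⟩
  · refine ⟨dsw_Cd α + π, fun z hz ↦ ?_⟩
    have hpi := Real.pi_pos
    have him : ((α : ℂ) * z + β).im = α * z.im := by
      simp [Complex.add_im, Complex.mul_im]
    have hle : α ≤ α * z.im := by nlinarith
    have b := dsw_pcot_add_norm_le (x := (α : ℂ) * z + β) h (by rw [him]; exact hle)
    have hexp : Real.exp (-(2 * π * ((α : ℂ) * z + β).im)) ≤ 1 := by
      rw [Real.exp_le_one_iff, him]
      nlinarith
    have hC := dsw_Cd_pos h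
    have b' : ‖dsw_pcot ((α : ℂ) * z + β) + π * I‖ ≤ dsw_Cd α := by
      refine le_trans b ?_
      unfold dsw_Cd at hC ⊢
      nlinarith
    have e : dsw_pcot ((α : ℂ) * z + β) = (dsw_pcot ((α : ℂ) * z + β) + π * I) - π * I := by ring
    rw [e]
    refine le_trans (norm_sub_le _ _) ?_
    have hn : ‖(π : ℂ) * I‖ = π := by
      rw [norm_mul, Complex.norm_I, mul_one, Complex.norm_real, Real.norm_eq_abs,
        abs_of_pos hpi]
    rw [hn]
    linarith

theorem dsw_F_isBoundedAtImInfty_aux (α β : ℝ) (hα0 : 0 ≤ α) (hα1 : α < 1) :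
    IsBoundedAtImInfty (dsw_F α β) := by
  rw [UpperHalfPlane.isBoundedAtImInfty_iff]
  obtain ⟨M1, hM1⟩ := dsw_first_norm_le α β hα0
  have hεpos : 0 < (1 - α) * 1 := by linarith
  have hgeo := dsw_geo_summable (2 * dsw_Cd ((1 - α) * 1)) _ (Real.exp_pos _).le
    (dsw_rho_lt_one hεpos)
  refine ⟨M1 + (∑' m : ℕ, 2 * dsw_Cd ((1 - α) * 1) *
    Real.exp (-(2 * π * ((1 - α) * 1))) ^ (m + 1)) + ‖2 * π * I * α‖, 1, fun z hz ↦ ?_⟩
  rw [dsw_F_eq_Fc]
  unfold dsw_Fc
  have hz' : (1 : ℝ) ≤ (z : ℂ).im := hz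
  refine le_trans (norm_add_le _ _) (add_le_add ?_ le_rfl)
  refine le_trans (norm_add_le _ _) (add_le_add (hM1 z hz') ?_)
  exact tsum_of_norm_bounded hgeo.hasSum (fun m ↦ dsw_T_norm_le β hα0 hα1 one_pos hz' m)

theorem dsw_F_isBoundedAtImInfty (α β : ℝ) : IsBoundedAtImInfty (dsw_F α β) := by
  rw [dsw_F_fract]
  exact dsw_F_isBoundedAtImInfty_aux _ β (Int.fract_nonneg α) (Int.fract_lt_one α)

end
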