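import Fermat.Agent.DS.Wt1.Defs

/-!
# DS-D leaf A: the cotangent `π cot (π x)`
-/

set_option autoImplicit false

open UpperHalfPlane hiding I
open Complex Filter Topology
open scoped Real

noncomputable section

theorem dsw_pcot_neg (x : ℂ) : dsw_pcot (-x) = -dsw_pcot x := by
  simp only [dsw_pcot, Complex.cot_eq_cos_div_sin, mul_neg, Complex.cos_neg, Complex.sin_neg,
    div_neg]

theorem dsw_exp_add_int (x : ℂ) (n : ℤ) :
    cexp (2 * π * I * (x + n)) = cexp (2 * π * I * x) := by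
  rw [mul_add, Complex.exp_add]
  have : cexp (2 * π * I * n) = 1 := by
    have := Complex.exp_int_mul_two_pi_mul_I n
    rw [← this]; congr 1; ring
  rw [this, mul_one]

theorem dsw_pcot_add_int (x : ℂ) (n : ℤ) : dsw_pcot (x + n) = dsw_pcot x := by
  simp only [dsw_pcot, Complex.cot_pi_eq_exp_ratio, dsw_exp_add_int]

/-- `π cot π x = -π i - 2 π i t / (1 - t)`, `t = exp (2 π i x)` (used for `0 < im x`). -/
theorem dsw_pcot_eq_exp (x : ℂ) (hx : cexp (2 * π * I * x) ≠ 1) :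
    dsw_pcot x = -(π * I) - 2 * π * I * (cexp (2 * π * I * x) / (1 - cexp (2 * π * I * x))) := by
  have h1 : 1 - cexp (2 * π * I * x) ≠ 0 := sub_ne_zero.mpr (Ne.symm hx)
  have hI : (I : ℂ) ≠ 0 := I_ne_zero
  rw [dsw_pcot, Complex.cot_pi_eq_exp_ratio]
  generalize cexp (2 * π * I * x) = t at h1 ⊢
  field_simp
  linear_combination (1 + t) * I_sq

theorem dsw_norm_exp (x : ℂ) : ‖cexp (2 * π * I * x)‖ = Real.exp (-(2 * π * x.im)) := by
  rw [Complex.norm_exp]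
  congr 1
  simp [Complex.mul_re, Complex.mul_im]

theorem dsw_pcot_add_norm_le {x : ℂ} {δ : ℝ} (hδ : 0 < δ) (hx : δ ≤ x.im) :
    ‖dsw_pcot x + π * I‖ ≤
      2 * π / (1 - Real.exp (-(2 * π * δ))) * Real.exp (-(2 * π * x.im)) := by
  set t := cexp (2 * π * I * x) with ht
  have hnt : ‖t‖ = Real.exp (-(2 * π * x.im)) := dsw_norm_exp x
  have hle : Real.exp (-(2 * π * x.im)) ≤ Real.exp (-(2 * π * δ)) := by
    apply Real.exp_le_exp.mpr
    have := Real.pi_pos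
    nlinarith
  have hlt : Real.exp (-(2 * π * δ)) < 1 := by
    rw [Real.exp_lt_one_iff] 
    have := Real.pi_pos
    nlinarith
  have hpos : 0 < 1 - Real.exp (-(2 * π * δ)) := by linarith
  have ht1 : t ≠ 1 := by
    intro h
    rw [h, norm_one] at hnt
    linarith
  have hden : 1 - Real.exp (-(2 * π * δ)) ≤ ‖1 - t‖ := by
    have := norm_sub_norm_le (1 : ℂ) t
    rw [norm_one] at this
    linarith
  have hden' : 0 < ‖1 - t‖ := lt_of_lt_of_le hpos hden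
  rw [dsw_pcot_eq_exp x ht1]
  have : -(π * I) - 2 * π * I * (t / (1 - t)) + π * I = -(2 * π * I * (t / (1 - t))) := by ring
  rw [this, norm_neg, norm_mul, norm_mul, norm_mul, norm_div, Complex.norm_I, mul_one, hnt]
  have h2 : ‖(2 : ℂ)‖ = 2 := by simp
  have hpi : ‖(π : ℂ)‖ = π := by
    rw [Complex.norm_real, Real.norm_eq_abs, abs_of_pos Real.pi_pos]
  rw [h2, hpi, div_mul_eq_mul_div, mul_div_assoc]
  apply mul_le_mul_of_nonneg_left _ (by positivity)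
  exact div_le_div_of_nonneg_left (Real.exp_pos _).le hpos hden

theorem dsw_pcot_sub_norm_le {x : ℂ} {δ : ℝ} (hδ : 0 < δ) (hx : x.im ≤ -δ) :
    ‖dsw_pcot x - π * I‖ ≤
      2 * π / (1 - Real.exp (-(2 * π * δ))) * Real.exp (2 * π * x.im) := by
  have h := dsw_pcot_add_norm_le (x := -x) hδ (by simp only [Complex.neg_im]; linarith)
  rw [dsw_pcot_neg] at h
  have e : -dsw_pcot x + π * I = -(dsw_pcot x - π * I) := by ring
  rw [e, norm_neg] at h
  simpa using h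

theorem dsw_mem_integerComplement {x : ℂ} (hx : ∀ n : ℤ, x ≠ n) :
    x ∈ Complex.integerComplement := by
  rw [Complex.mem_integerComplement_iff]
  rintro ⟨n, hn⟩
  exact hx n hn.symm

theorem dsw_pcot_differentiableAt {x : ℂ} (hx : ∀ n : ℤ, x ≠ n) :
    DifferentiableAt ℂ dsw_pcot x := by
  have hs : Complex.sin (π * x) ≠ 0 := sin_pi_mul_ne_zero (dsw_mem_integerComplement hx)
  unfold dsw_pcot
  have : (fun x : ℂ ↦ (π : ℂ) * Complex.cot (π * x)) =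
      fun x : ℂ ↦ (π : ℂ) * (Complex.cos (π * x) / Complex.sin (π * x)) := by
    funext y; rw [Complex.cot_eq_cos_div_sin]
  rw [this]
  apply DifferentiableAt.const_mul
  apply DifferentiableAt.div
  · fun_prop
  · fun_prop
  · exact hs

/-- `π cot π x - 1 / x = ∑ 2x / (x² - (n+1)²)` is `O(x)` near `0`. -/
theorem dsw_pcot_sub_inv_norm_le {x : ℂ} (hx0 : x ≠ 0) (hx : ‖x‖ ≤ 1 / 2) :
    ‖dsw_pcot x - 1 / x‖ ≤ ‖x‖ * (∑' n : ℕ, (8 : ℝ) / ((n : ℝ) + 1) ^ 2) := by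
  have hxZ : x ∈ Complex.integerComplement := by
    apply dsw_mem_integerComplement
    intro n hn
    rcases eq_or_ne n 0 with rfl | hn0
    · exact hx0 (by simpa using hn)
    · have : (1 : ℝ) ≤ ‖x‖ := by
        rw [hn, Complex.norm_intCast]
        exact_mod_cast Int.one_le_abs hn0
      linarith
  have hsum : Summable (fun n : ℕ ↦ (8 : ℝ) / ((n : ℝ) + 1) ^ 2) := by
    have := (Real.summable_nat_pow_inv (p := 2)).mpr (by norm_num)
    have h2 := (summable_nat_add_iff 1).mpr this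
    refine (h2.mul_left (8 : ℝ)).congr ?_
    intro n
    simp [div_eq_mul_inv]
  unfold dsw_pcot
  rw [cot_series_rep' hxZ, ← tsum_mul_left]
  apply tsum_of_norm_bounded (hsum.mul_left ‖x‖).hasSum
  intro n
  have hn1 : (1 : ℝ) ≤ (n : ℝ) + 1 := by
    have : (0 : ℝ) ≤ n := Nat.cast_nonneg n
    linarith
  have hne1 : x - ((n : ℂ) + 1) ≠ 0 := by
    have := integerComplement_add_ne_zero hxZ (-((n : ℤ) + 1))
    intro h; apply this; push_cast; rw [← h]; ring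
  have hne2 : x + ((n : ℂ) + 1) ≠ 0 := by
    have := integerComplement_add_ne_zero hxZ ((n : ℤ) + 1)
    intro h; apply this; push_cast; rw [← h]
  have hid : 1 / (x - ((n : ℂ) + 1)) + 1 / (x + ((n : ℂ) + 1)) =
      2 * x / ((x - ((n : ℂ) + 1)) * (x + ((n : ℂ) + 1))) := by
    field_simp
    ring
  rw [hid, norm_div, norm_mul, norm_mul]
  have hN : ‖((n : ℂ) + 1)‖ = (n : ℝ) + 1 := by
    have : ((n : ℂ) + 1) = (((n : ℝ) + 1 : ℝ) : ℂ) := by push_cast; ring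
    rw [this, Complex.norm_real, Real.norm_eq_abs, abs_of_pos (by linarith)]
  have hl1 : (n : ℝ) + 1 - 1 / 2 ≤ ‖x - ((n : ℂ) + 1)‖ := by
    have := norm_sub_norm_le ((n : ℂ) + 1) x
    rw [hN] at this
    rw [norm_sub_rev]
    linarith
  have hl2 : (n : ℝ) + 1 - 1 / 2 ≤ ‖x + ((n : ℂ) + 1)‖ := by
    have := norm_sub_norm_le ((n : ℂ) + 1) (-x)
    rw [hN, norm_neg] at this
    have e : (n : ℂ) + 1 - -x = x + ((n : ℂ) + 1) := by ring
    rw [e] at this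
    linarith
  have hhalf : ((n : ℝ) + 1) / 2 ≤ (n : ℝ) + 1 - 1 / 2 := by linarith
  have hprod : ((n : ℝ) + 1) ^ 2 / 4 ≤ ‖x - ((n : ℂ) + 1)‖ * ‖x + ((n : ℂ) + 1)‖ := by
    have h1 : ((n : ℝ) + 1) / 2 ≤ ‖x - ((n : ℂ) + 1)‖ := le_trans hhalf hl1
    have h2 : ((n : ℝ) + 1) / 2 ≤ ‖x + ((n : ℂ) + 1)‖ := le_trans hhalf hl2
    have : ((n : ℝ) + 1) / 2 * (((n : ℝ) + 1) / 2) ≤
        ‖x - ((n : ℂ) + 1)‖ * ‖x + ((n : ℂ) + 1)‖ :=
      mul_le_mul h1 h2 (by positivity) (le_trans (by positivity) h1)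
    calc ((n : ℝ) + 1) ^ 2 / 4 = ((n : ℝ) + 1) / 2 * (((n : ℝ) + 1) / 2) := by ring
      _ ≤ _ := this
  have h2 : ‖(2 : ℂ)‖ = 2 := by simp
  rw [h2]
  have hpos : 0 < ((n : ℝ) + 1) ^ 2 / 4 := by positivity
  calc 2 * ‖x‖ / (‖x - ((n : ℂ) + 1)‖ * ‖x + ((n : ℂ) + 1)‖)
      ≤ 2 * ‖x‖ / (((n : ℝ) + 1) ^ 2 / 4) :=
        div_le_div_of_nonneg_left (by positivity) hpos hprod
    _ = ‖x‖ * (8 / ((n : ℝ) + 1) ^ 2) := by field_simp; ring

/-- `π cot π x - 1 / x → 0` as `x → 0`. -/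
theorem dsw_pcot_sub_inv_tendsto :
    Tendsto (fun x : ℂ ↦ dsw_pcot x - 1 / x) (𝓝[≠] 0) (𝓝 0) := by
  set C := ∑' n : ℕ, (8 : ℝ) / ((n : ℝ) + 1) ^ 2 with hC
  apply squeeze_zero_norm' (a := fun x : ℂ ↦ ‖x‖ * C)
  · have h1 : ∀ᶠ x in 𝓝[≠] (0 : ℂ), ‖x‖ ≤ 1 / 2 := by
      have : ∀ᶠ x in 𝓝 (0 : ℂ), ‖x‖ ≤ 1 / 2 := by
        have := Metric.closedBall_mem_nhds (0 : ℂ) (by norm_num : (0 : ℝ) < 1 / 2)
        filter_upwards [this] with x hx
        simpa using hx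
      exact this.filter_mono nhdsWithin_le_nhds
    filter_upwards [h1, self_mem_nhdsWithin] with x hx hx0
    exact dsw_pcot_sub_inv_norm_le hx0 hx
  · have : Tendsto (fun x : ℂ ↦ ‖x‖ * C) (𝓝 0) (𝓝 (‖(0 : ℂ)‖ * C)) :=
      ((continuous_norm.mul continuous_const).tendsto (0 : ℂ))
    simpa using this.mono_left nhdsWithin_le_nhds

end
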