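import Mathlib

/-!
# DS-D: weight one forms on `Gamma1 N` from torsion points (definitions)

`dsw_pcot x = π cot (π x)`; `dsw_Z w z` = the cotangent series
`π cot π w + ∑_{m ≥ 1} (π cot π (w + m z) + π cot π (w - m z))`
(the logarithmic derivative in `w` of the odd Jacobi theta function of the lattice `ℤ z + ℤ`);
`dsw_F α β z = Z (α z + β, z) + 2 π i α`, the weight one form attached to the point
`α z + β` of `ℂ / (ℤ z + ℤ)`.
-/

set_option autoImplicit false

open UpperHalfPlane hiding I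
open Complex
open scoped Real MatrixGroups ModularForm

noncomputable section

/-- `π cot (π x)`. -/
def dsw_pcot (x : ℂ) : ℂ := π * Complex.cot (π * x)

/-- the `m`-th term (`m ≥ 1` is the index `m + 1`) of the cotangent series. -/
def dsw_Zterm (w : ℂ) (z : ℍ) (m : ℕ) : ℂ :=
  dsw_pcot (w + ((m : ℂ) + 1) * z) + dsw_pcot (w - ((m : ℂ) + 1) * z)

/-- The cotangent series `Z (w, z)`. -/
def dsw_Z (w : ℂ) (z : ℍ) : ℂ := dsw_pcot w + ∑' m : ℕ, dsw_Zterm w z m

/-- `F_{α, β} (z) = Z (α z + β, z) + 2 π i α`. -/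
def dsw_F (α β : ℝ) (z : ℍ) : ℂ := dsw_Z ((α : ℂ) * z + β) z + 2 * π * I * α

/-- `ζ_N = exp (2 π i / N)`. -/
def dsw_zeta (N : ℕ) : ℂ := Complex.exp (2 * π * I / N)

/-- The `n`-th coefficient (`n ≥ 1`) of `F_{0, β} / (2 π i)`, `u = exp (2 π i β)`. -/
def dsw_sig (u : ℂ) (n : ℕ) : ℂ := ∑ d ∈ n.divisors, (u⁻¹ ^ d - u ^ d)

end
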