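import Fermat.Agent.DS.Wt1.ZSmul

/-!
# DS-D leaf D1: periodicity and the slash action on the functions `F_{α, β}`
-/

set_option autoImplicit false

open UpperHalfPlane hiding I
open Complex Filter Topology
open scoped Real MatrixGroups ModularForm

noncomputable section

theorem dsw_F_add_int (α β : ℝ) (m n : ℤ) : dsw_F (α + m) (β + n) = dsw_F α β := by
  funext z
  unfold dsw_F
  have e : ((α + m : ℝ) : ℂ) * z + ((β + n : ℝ) : ℂ) =
      ((α : ℂ) * z + β) + ((m : ℂ) * z + n) := by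
    push_cast; ring
  rw [e, dsw_Z_add_lattice]
  push_cast
  ring

theorem dsw_F_slash (α β : ℝ) (γ : SL(2, ℤ)) :
    (dsw_F α β) ∣[(1 : ℤ)] γ =
      dsw_F (α * (γ 0 0 : ℝ) + β * (γ 1 0 : ℝ)) (α * (γ 0 1 : ℝ) + β * (γ 1 1 : ℝ)) := by
  funext z
  have hj : denom γ z ≠ 0 := denom_ne_zero γ z
  rw [ModularForm.SL_slash_apply]
  unfold dsw_F
  set w : ℂ := ((α * (γ 0 0 : ℝ) + β * (γ 1 0 : ℝ) : ℝ) : ℂ) * z +
    ((α * (γ 0 1 : ℝ) + β * (γ 1 1 : ℝ) : ℝ) : ℂ) with hw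
  have e : (α : ℂ) * ((γ • z : ℍ) : ℂ) + β = w / denom γ z := by
    rw [dsw_smul_coe, hw]
    field_simp
    rw [dsw_denom]
    push_cast
    ring
  rw [e, dsw_Z_smul]
  rw [zpow_neg, zpow_one]
  field_simp
  rw [hw, dsw_denom]
  push_cast
  linear_combination (-(2 * π * I * α)) * dsw_det γ

end
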