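import Fermat.Agent.DS.Wt1.Forms
import Fermat.Agent.DS.Wt1.Arith

/-!
# DS-D: weight one forms on `Gamma1 l` congruent to `1` modulo `1 - ζ_l` (MAIN)
-/

set_option autoImplicit false

open UpperHalfPlane hiding I
open Complex CongruenceSubgroup Filter Topology
open scoped Real MatrixGroups ModularForm Manifold

noncomputable section

/-- the normalised form `A_d = E_d / c_0 (E_d)` on `Gamma1 l`. -/
def dsw_A (l : ℕ) [NeZero l] (d : ℤ) : ModularForm (Gamma1 l) 1 :=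
  (dsw_pcot ((d : ℂ) / l))⁻¹ • dsw_E l d

theorem dsw_A_coe (l : ℕ) [NeZero l] (d : ℤ) :
    (dsw_A l d : ℍ → ℂ) = (dsw_pcot ((d : ℂ) / l))⁻¹ • (dsw_E l d : ℍ → ℂ) := rfl

theorem dsw_A_qCoeff_eq (l : ℕ) [NeZero l] (d : ℤ) (n : ℕ) :
    ModularFormClass.qCoeff (dsw_A l d) n =
      (dsw_pcot ((d : ℂ) / l))⁻¹ * ModularFormClass.qCoeff (dsw_E l d) n := by
  unfold ModularFormClass.qCoeff
  rw [dsw_A_coe, ModularForm.qExpansion_smul one_pos (dsw_one_mem_strictPeriods_Gamma1 l)]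
  simp

/-- MAIN 1a. -/
theorem dsw_A_qCoeff_zero (l : ℕ) [NeZero l] (hl : l.Prime) (hl2 : l ≠ 2) (d : ℤ)
    (hd : ¬ (l : ℤ) ∣ d) : ModularFormClass.qCoeff (dsw_A l d) 0 = 1 := by
  rw [dsw_A_qCoeff_eq, dsw_E_qCoeff_zero]
  exact inv_mul_cancel₀ (dsw_pcot_torsion_ne_zero l hl hl2 d hd)

/-- MAIN 1b.  `A_d = 1` modulo `1 - ζ_l`. -/
theorem dsw_A_qCoeff (l : ℕ) [NeZero l] (hl : l.Prime) (hl2 : l ≠ 2) (d : ℤ)
    (hd : ¬ (l : ℤ) ∣ d) (n : ℕ) (hn : n ≠ 0) :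
    ∃ b : ℂ, IsIntegral ℤ b ∧ ModularFormClass.qCoeff (dsw_A l d) n = (1 - dsw_zeta l) * b := by
  obtain ⟨b, hb, hb2⟩ := dsw_ratio_integral l hl hl2 d hd
  refine ⟨b * dsw_sig (dsw_zeta l ^ d) n, hb.mul (dsw_sig_integral l d n), ?_⟩
  rw [dsw_A_qCoeff_eq, dsw_E_qCoeff l d n hn, dsw_pcot_torsion l d hd, ← mul_assoc,
    ← mul_assoc (1 - dsw_zeta l), ← hb2]
  have h1 : dsw_zeta l ^ d - 1 ≠ 0 := sub_ne_zero.mpr (dsw_zeta_zpow_ne_one l d hd)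
  have h2 : dsw_zeta l ^ d + 1 ≠ 0 := fun h ↦
    dsw_zeta_zpow_ne_neg_one l (dsw_prime_odd hl hl2) d (eq_neg_of_add_eq_zero_left h)
  have hpi : (π : ℂ) ≠ 0 := by exact_mod_cast Real.pi_ne_zero
  have hI : (I : ℂ) ≠ 0 := I_ne_zero
  field_simp

/-- MAIN 1c.  `A_d = 1` modulo every prime of `ℤ̄` over `l`. -/
theorem dsw_A_qCoeff_mem (l : ℕ) [NeZero l] (hl : l.Prime) (hl2 : l ≠ 2) (d : ℤ)
    (hd : ¬ (l : ℤ) ∣ d) (P : Ideal (integralClosure ℤ ℂ)) [P.IsPrime]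
    (hP : (l : integralClosure ℤ ℂ) ∈ P) (n : ℕ) (hn : n ≠ 0) :
    ∃ x : integralClosure ℤ ℂ, x ∈ P ∧ (x : ℂ) = ModularFormClass.qCoeff (dsw_A l d) n := by
  obtain ⟨b, hb, hb2⟩ := dsw_A_qCoeff l hl hl2 d hd n hn
  refine ⟨(1 - dsw_z l) * ⟨b, hb⟩, P.mul_mem_right _ (dsw_one_sub_z_mem l hl P hP), ?_⟩
  rw [hb2]
  push_cast
  rw [dsw_z_coe]

/-- MAIN 2.  The diamond action on `A_1`: for `γ ∈ Gamma0 l` with lower right entry `d`,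
`A_1 ∣ γ = κ_d A_d`, where `κ_d` is integral and `d κ_d = 1` modulo `1 - ζ_l`
(`dsw_kappa`): `A_1` has nebentypus `d ↦ d⁻¹` modulo `1 - ζ_l`. -/
theorem dsw_A_slash_Gamma0 (l : ℕ) [NeZero l] (hl : l.Prime) (hl2 : l ≠ 2)
    (γ : SL(2, ℤ)) (hγ : γ ∈ Gamma0 l) :
    (dsw_A l 1 : ℍ → ℂ) ∣[(1 : ℤ)] γ =
      (dsw_pcot (((γ 1 1 : ℤ) : ℂ) / l) / dsw_pcot ((1 : ℂ) / l)) • (dsw_A l (γ 1 1) : ℍ → ℂ) := by
  -- `l` does not divide the lower right entry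
  have hd : ¬ (l : ℤ) ∣ γ 1 1 := by
    intro h
    rw [Gamma0_mem] at hγ
    have h10 : (l : ℤ) ∣ γ 1 0 := (ZMod.intCast_zmod_eq_zero_iff_dvd _ _).mp hγ
    have hdet := γ.det_coe
    rw [Matrix.det_fin_two] at hdet
    have : (l : ℤ) ∣ 1 := by
      rw [← hdet]
      exact dvd_sub (dvd_mul_of_dvd_right h _) (dvd_mul_of_dvd_right h10 _)
    have h1 := Int.eq_one_of_dvd_one (by positivity) this
    have : l = 1 := by exact_mod_cast h1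
    exact hl.one_lt.ne' this
  have hne := dsw_pcot_torsion_ne_zero l hl hl2 (γ 1 1) hd
  have h1l : ¬ (l : ℤ) ∣ 1 := by
    intro h0
    have h1 := Int.eq_one_of_dvd_one (by positivity) h0
    have : l = 1 := by exact_mod_cast h1
    exact hl.one_lt.ne' this
  have hne1 := dsw_pcot_torsion_ne_zero l hl hl2 1 h1l
  rw [dsw_A_coe, dsw_A_coe, ModularForm.SL_smul_slash, dsw_E_slash_Gamma0 l 1 γ hγ, one_mul,
    smul_smul]
  congr 1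
  push_cast at hne1 ⊢
  field_simp

end
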