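import Fermat.Agent.DS.Wt1.Cot

/-!
# DS-D leaf B1: the cotangent series `Z (w, z)`: convergence and quasi-periods
-/

set_option autoImplicit false

open UpperHalfPlane hiding I
open Complex Filter Topology
open scoped Real

noncomputable section

/-- the constant `2 π / (1 - exp (-2 π))` of the bounds of leaf A with `δ = 1`. -/
def dsw_C : ℝ := 2 * π / (1 - Real.exp (-(2 * π * 1)))

theorem dsw_C_pos : 0 < dsw_C := by
  unfold dsw_C
  have hlt : Real.exp (-(2 * π * 1)) < 1 := by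
    rw [Real.exp_lt_one_iff]
    have := Real.pi_pos
    nlinarith
  have := Real.pi_pos
  apply div_pos <;> linarith

/-- uniform bound for the terms of the series far out. -/
theorem dsw_Zterm_norm_le (w : ℂ) (z : ℍ) (m : ℕ)
    (h : |w.im| + 1 ≤ ((m : ℝ) + 1) * z.im) :
    ‖dsw_Zterm w z m‖ ≤
      2 * dsw_C * Real.exp (2 * π * |w.im|) * Real.exp (-(2 * π * z.im)) ^ (m + 1) := by
  have hy := z.im_pos
  have hpi := Real.pi_pos
  have habs1 : -|w.im| ≤ w.im := neg_abs_le _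
  have habs2 : w.im ≤ |w.im| := le_abs_self _
  have him1 : (w + ((m : ℂ) + 1) * z).im = w.im + ((m : ℝ) + 1) * z.im := by
    simp [Complex.add_im, Complex.mul_im]
  have him2 : (w - ((m : ℂ) + 1) * z).im = w.im - ((m : ℝ) + 1) * z.im := by
    simp [Complex.sub_im, Complex.mul_im]
  have hpow : Real.exp (-(2 * π * z.im)) ^ (m + 1) =
      Real.exp (-(2 * π * (((m : ℝ) + 1) * z.im))) := by
    rw [← Real.exp_nat_mul]
    congr 1
    push_cast
    ring
  have b1 := dsw_pcot_add_norm_le (x := w + ((m : ℂ) + 1) * z) (δ := 1) one_pos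
    (by rw [him1]; linarith)
  have b2 := dsw_pcot_sub_norm_le (x := w - ((m : ℂ) + 1) * z) (δ := 1) one_pos
    (by rw [him2]; linarith)
  rw [him1] at b1
  rw [him2] at b2
  have e : dsw_Zterm w z m = (dsw_pcot (w + ((m : ℂ) + 1) * z) + π * I) +
      (dsw_pcot (w - ((m : ℂ) + 1) * z) - π * I) := by
    unfold dsw_Zterm; ring
  rw [e]
  refine le_trans (norm_add_le _ _) ?_
  have hC := dsw_C_pos
  have k1 : Real.exp (-(2 * π * (w.im + ((m : ℝ) + 1) * z.im))) ≤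
      Real.exp (2 * π * |w.im|) * Real.exp (-(2 * π * (((m : ℝ) + 1) * z.im))) := by
    rw [← Real.exp_add]
    apply Real.exp_le_exp.mpr
    nlinarith
  have k2 : Real.exp (2 * π * (w.im - ((m : ℝ) + 1) * z.im)) ≤
      Real.exp (2 * π * |w.im|) * Real.exp (-(2 * π * (((m : ℝ) + 1) * z.im))) := by
    rw [← Real.exp_add]
    apply Real.exp_le_exp.mpr
    nlinarith
  rw [hpow]
  have b1' : ‖dsw_pcot (w + ((m : ℂ) + 1) * z) + π * I‖ ≤ dsw_C *
      (Real.exp (2 * π * |w.im|) * Real.exp (-(2 * π * (((m : ℝ) + 1) * z.im)))) :=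
    le_trans b1 (mul_le_mul_of_nonneg_left k1 hC.le)
  have b2' : ‖dsw_pcot (w - ((m : ℂ) + 1) * z) - π * I‖ ≤ dsw_C *
      (Real.exp (2 * π * |w.im|) * Real.exp (-(2 * π * (((m : ℝ) + 1) * z.im)))) :=
    le_trans b2 (mul_le_mul_of_nonneg_left k2 hC.le)
  linarith

theorem dsw_exp_lt_one (z : ℍ) : Real.exp (-(2 * π * z.im)) < 1 := by
  rw [Real.exp_lt_one_iff]
  have := z.im_pos
  have := Real.pi_pos
  nlinarith

theorem dsw_eventually_le (w : ℂ) (z : ℍ) :
    ∀ᶠ m : ℕ in atTop, |w.im| + 1 ≤ ((m : ℝ) + 1) * z.im := by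
  have hy := z.im_pos
  obtain ⟨M, hM⟩ := exists_nat_gt ((|w.im| + 1) / z.im)
  filter_upwards [eventually_ge_atTop M] with m hm
  have : (M : ℝ) ≤ m := by exact_mod_cast hm
  have h1 : (|w.im| + 1) / z.im ≤ (m : ℝ) + 1 := by linarith
  calc |w.im| + 1 = (|w.im| + 1) / z.im * z.im := by field_simp
    _ ≤ ((m : ℝ) + 1) * z.im := mul_le_mul_of_nonneg_right h1 hy.le

theorem dsw_Zterm_summable (w : ℂ) (z : ℍ) : Summable (dsw_Zterm w z) := by
  have hgeo : Summable (fun m : ℕ ↦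
      2 * dsw_C * Real.exp (2 * π * |w.im|) * Real.exp (-(2 * π * z.im)) ^ (m + 1)) := by
    apply Summable.mul_left
    have := summable_geometric_of_lt_one (Real.exp_pos _).le (dsw_exp_lt_one z)
    exact (summable_nat_add_iff 1).mpr this
  apply Summable.of_norm_bounded_eventually_nat hgeo
  filter_upwards [dsw_eventually_le w z] with m hm
  exact dsw_Zterm_norm_le w z m hm

theorem dsw_Zterm_neg (w : ℂ) (z : ℍ) (m : ℕ) : dsw_Zterm (-w) z m = -dsw_Zterm w z m := by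
  unfold dsw_Zterm
  have e1 : -w + ((m : ℂ) + 1) * z = -(w - ((m : ℂ) + 1) * z) := by ring
  have e2 : -w - ((m : ℂ) + 1) * z = -(w + ((m : ℂ) + 1) * z) := by ring
  rw [e1, e2, dsw_pcot_neg, dsw_pcot_neg]
  ring

theorem dsw_Z_neg (w : ℂ) (z : ℍ) : dsw_Z (-w) z = -dsw_Z w z := by
  unfold dsw_Z
  rw [dsw_pcot_neg, neg_add, ← tsum_neg]
  congr 1
  exact tsum_congr (fun m ↦ dsw_Zterm_neg w z m)

theorem dsw_Zterm_add_int (w : ℂ) (z : ℍ) (n : ℤ) (m : ℕ) :
    dsw_Zterm (w + n) z m = dsw_Zterm w z m := by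
  unfold dsw_Zterm
  have e1 : w + n + ((m : ℂ) + 1) * z = (w + ((m : ℂ) + 1) * z) + n := by ring
  have e2 : w + n - ((m : ℂ) + 1) * z = (w - ((m : ℂ) + 1) * z) + n := by ring
  rw [e1, e2, dsw_pcot_add_int, dsw_pcot_add_int]

theorem dsw_Z_add_int (w : ℂ) (z : ℍ) (n : ℤ) : dsw_Z (w + n) z = dsw_Z w z := by
  unfold dsw_Z
  rw [dsw_pcot_add_int]
  congr 1
  exact tsum_congr (fun m ↦ dsw_Zterm_add_int w z n m)

theorem dsw_Z_add_one (w : ℂ) (z : ℍ) : dsw_Z (w + 1) z = dsw_Z w z := by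
  simpa using dsw_Z_add_int w z 1

/-- partial sums. -/
def dsw_S (w : ℂ) (z : ℍ) (M : ℕ) : ℂ := dsw_pcot w + ∑ m ∈ Finset.range M, dsw_Zterm w z m

theorem dsw_S_tendsto (w : ℂ) (z : ℍ) : Tendsto (dsw_S w z) atTop (𝓝 (dsw_Z w z)) := by
  unfold dsw_S dsw_Z
  exact tendsto_const_nhds.add (dsw_Zterm_summable w z).hasSum.tendsto_sum_nat

theorem dsw_S_shift (w : ℂ) (z : ℍ) (M : ℕ) :
    dsw_S (w + z) z M =
      dsw_S w z M + dsw_pcot (w + ((M : ℂ) + 1) * z) - dsw_pcot (w - (M : ℂ) * z) := by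
  induction M with
  | zero => simp [dsw_S]
  | succ M ih =>
    have e : dsw_S (w + z) z (M + 1) = dsw_S (w + z) z M + dsw_Zterm (w + z) z M := by
      unfold dsw_S; rw [Finset.sum_range_succ]; ring
    have e' : dsw_S w z (M + 1) = dsw_S w z M + dsw_Zterm w z M := by
      unfold dsw_S; rw [Finset.sum_range_succ]; ring
    rw [e, e', ih]
    unfold dsw_Zterm
    have a1 : w + (z : ℂ) + ((M : ℂ) + 1) * z = w + (((M + 1 : ℕ) : ℂ) + 1) * z := by
      push_cast; ring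
    have a2 : w + (z : ℂ) - ((M : ℂ) + 1) * z = w - (M : ℂ) * z := by ring
    have a3 : w - (((M + 1 : ℕ) : ℂ)) * z = w - ((M : ℂ) + 1) * z := by push_cast; ring
    rw [a1, a2, a3]
    ring

theorem dsw_pcot_tendsto_pos (w : ℂ) (z : ℍ) :
    Tendsto (fun M : ℕ ↦ dsw_pcot (w + ((M : ℂ) + 1) * z)) atTop (𝓝 (-(π * I))) := by
  rw [tendsto_iff_norm_sub_tendsto_zero]
  have hgeo : Tendsto (fun M : ℕ ↦ dsw_C * (Real.exp (2 * π * |w.im|) *
      Real.exp (-(2 * π * z.im)) ^ (M + 1))) atTop (𝓝 0) := by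
    have := tendsto_pow_atTop_nhds_zero_of_lt_one (Real.exp_pos _).le (dsw_exp_lt_one z)
    have := (tendsto_add_atTop_iff_nat 1).mpr this
    simpa using (this.const_mul (Real.exp (2 * π * |w.im|))).const_mul dsw_C
  apply squeeze_zero' (Eventually.of_forall fun _ ↦ norm_nonneg _) _ hgeo
  filter_upwards [dsw_eventually_le w z] with m hm
  have hy := z.im_pos
  have hpi := Real.pi_pos
  have habs1 : -|w.im| ≤ w.im := neg_abs_le _
  have him1 : (w + ((m : ℂ) + 1) * z).im = w.im + ((m : ℝ) + 1) * z.im := by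
    simp [Complex.add_im, Complex.mul_im]
  have b1 := dsw_pcot_add_norm_le (x := w + ((m : ℂ) + 1) * z) (δ := 1) one_pos
    (by rw [him1]; linarith)
  rw [him1] at b1
  have hpow : Real.exp (-(2 * π * z.im)) ^ (m + 1) =
      Real.exp (-(2 * π * (((m : ℝ) + 1) * z.im))) := by
    rw [← Real.exp_nat_mul]
    congr 1
    push_cast
    ring
  have k1 : Real.exp (-(2 * π * (w.im + ((m : ℝ) + 1) * z.im))) ≤
      Real.exp (2 * π * |w.im|) * Real.exp (-(2 * π * (((m : ℝ) + 1) * z.im))) := by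
    rw [← Real.exp_add]
    apply Real.exp_le_exp.mpr
    nlinarith
  rw [sub_neg_eq_add, hpow]
  exact le_trans b1 (mul_le_mul_of_nonneg_left k1 dsw_C_pos.le)

theorem dsw_pcot_tendsto_neg (w : ℂ) (z : ℍ) :
    Tendsto (fun M : ℕ ↦ dsw_pcot (w - (M : ℂ) * z)) atTop (𝓝 (π * I)) := by
  have h := dsw_pcot_tendsto_pos (-w) z
  have h2 : Tendsto (fun M : ℕ ↦ dsw_pcot (w - ((M : ℂ) + 1) * z)) atTop (𝓝 (π * I)) := by
    have := h.neg
    rw [neg_neg] at this
    refine this.congr (fun M ↦ ?_)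
    rw [← dsw_pcot_neg]
    congr 1
    ring
  rw [← tendsto_add_atTop_iff_nat (f := fun M : ℕ ↦ dsw_pcot (w - (M : ℂ) * z)) 1]
  refine h2.congr (fun M ↦ ?_)
  push_cast
  rfl

/-- The quasi-period along `z` (telescoping; true for every `w`, junk values included). -/
theorem dsw_Z_add_z (w : ℂ) (z : ℍ) : dsw_Z (w + z) z = dsw_Z w z - 2 * π * I := by
  have h1 := dsw_S_tendsto (w + z) z
  have h2 : Tendsto (dsw_S (w + z) z) atTop (𝓝 (dsw_Z w z + -(π * I) - π * I)) := by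
    have := ((dsw_S_tendsto w z).add (dsw_pcot_tendsto_pos w z)).sub (dsw_pcot_tendsto_neg w z)
    refine this.congr (fun M ↦ ?_)
    rw [dsw_S_shift]
  have := tendsto_nhds_unique h1 h2
  rw [this]
  ring

theorem dsw_Z_add_nat_mul (w : ℂ) (z : ℍ) (m : ℕ) :
    dsw_Z (w + (m : ℂ) * z) z = dsw_Z w z - 2 * π * I * m := by
  induction m with
  | zero => simp
  | succ m ih =>
    have e : w + ((m + 1 : ℕ) : ℂ) * z = (w + (m : ℂ) * z) + z := by push_cast; ring
    rw [e, dsw_Z_add_z, ih]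
    push_cast
    ring

theorem dsw_Z_add_int_mul (w : ℂ) (z : ℍ) (m : ℤ) :
    dsw_Z (w + (m : ℂ) * z) z = dsw_Z w z - 2 * π * I * m := by
  rcases Int.eq_nat_or_neg m with ⟨k, rfl | rfl⟩
  · simpa using dsw_Z_add_nat_mul w z k
  · have h := dsw_Z_add_nat_mul (w + ((-(k : ℤ) : ℤ) : ℂ) * z) z k
    have e : w + ((-(k : ℤ) : ℤ) : ℂ) * z + (k : ℂ) * z = w := by push_cast; ring
    rw [e] at h
    rw [h]
    push_cast
    ring

theorem dsw_Z_add_lattice (w : ℂ) (z : ℍ) (m n : ℤ) :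
    dsw_Z (w + (m * z + n)) z = dsw_Z w z - 2 * π * I * m := by
  have e : w + ((m : ℂ) * z + n) = (w + (m : ℂ) * z) + n := by ring
  rw [e, dsw_Z_add_int, dsw_Z_add_int_mul]

end
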